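import Mathlib

/-!
# Row LT, tower T7, field `matched`, core node CutIntC305 -- ASSET "HAAR-SPLIT" (helper159)

OFF-MAIN.  MATHLIB ONLY, abstract.  No hole, nothing assumed.  ADDITIVE (suffix `159`).

THE SPLITTING OF THE HAAR MEASURE OF A RESTRICTED PRODUCT, IN INTEGRAL FORM.

* `isHaarMeasure_map_restrict159`: `G` a topological group with a Haar measure `μ`, `E ⊆ G` an
  open subgroup, `p : G →* H` a continuous homomorphism which maps `E` ONTO `H`, properly
  (`E ∩ p⁻¹(C)` lies in a compact set for every compact `C`): the image of `μ|_E` under `p` is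
  a Haar measure of `H`.
* `integral_map_restrict159`: `∫_E F(p g) dμ(g) = ∫_H F d(p_* μ|_E)`.
* `IsRestrProd159 μ p K S₀`: the abstract form of "`G` is the restricted product of the `X i`
  with respect to the subgroups `K i` (`i ∉ S₀`)": for every finite `S ⊇ S₀` the set
  `E_S = {g : p_i(g) ∈ K_i for i ∉ S}` is open and `(p_i)_{i ∈ S}` maps it onto
  `∏_{i ∈ S} X i`, properly on boxes.
* **`integral_restr159`** (`restrMeas_eq159`, `exists_const159`): if `μ_i` are Haar measures
  of the `X i` with `μ_i(K_i) = 1` for `i ∉ S₀`, there is ONE constant `0 < c < ∞`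
  (`restrConst159 μ p K μ' S₀`, `restrConst_pos159`) such that for EVERY finite `S ⊇ S₀` and
  every `F` on `∏_{i ∈ S} X i` (a.e. strongly measurable)

      ∫_{E_S} F((p_i g)_{i ∈ S}) dμ(g) = c · ∫ F d(⊗_{i ∈ S} μ_i).

* **`integral_restr_prod159`**: the same for a product `F = ∏_{i ∈ S} f_i(x_i)` of measurable
  functions: `∫_{E_S} ∏_{i ∈ S} f_i(p_i g) dμ(g) = c · ∏_{i ∈ S} ∫ f_i dμ_i`.
* `const_unique159`: the constants at two levels `S ⊆ S'` agree (boxes of compact
  neighbourhoods of one, `K_i` at the new places).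

USE (CutIntC305): `G = GL₂(𝔸_K)`, `ι` = the places of `K` (for the field upstairs: group the
places over `v`, `X v = ∏_{w ∣ v} GL₂(K'_w)`), `p` = the components (`finGL305`, `infGL305`),
`K v = GL₂(𝒪_v)`, `S₀ ⊇` the infinite places; the integrand of the cut-off integral with a
product cut-off `β = 1_{E_S} ∏_{v ∈ S} β_v` is `1_{E_S}(y) ∏_{v ∈ S} F_v(y_v)` for
`S = T_δ ∪ S_∞` (good units outside: `GoodUnit*.lean`), and the constant does not depend on
`S`, hence not on `δ`.
-/

set_option autoImplicit false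

open MeasureTheory MeasureTheory.Measure Set Filter

noncomputable section

namespace Fermat.Agent.LT.T7.H159

section Push

variable {G H : Type*} [Group G] [TopologicalSpace G] [IsTopologicalGroup G]
  [MeasurableSpace G] [BorelSpace G]
  [Group H] [TopologicalSpace H] [IsTopologicalGroup H] [MeasurableSpace H] [BorelSpace H]

omit [IsTopologicalGroup G] [IsTopologicalGroup H] in
theorem map_restrict_apply159 (μ : Measure G) (E : Subgroup G)
    (p : G →* H) (hp : Continuous p) {A : Set H} (hA : MeasurableSet A) :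
    Measure.map p (μ.restrict (E : Set G)) A = μ (p ⁻¹' A ∩ (E : Set G)) := by
  rw [Measure.map_apply hp.measurable hA, Measure.restrict_apply (hp.measurable hA)]

/-- The image of the restriction of a Haar measure to an open subgroup under a continuous
homomorphism which is onto and proper on the subgroup is a Haar measure. -/
theorem isHaarMeasure_map_restrict159 (μ : Measure G) [μ.IsHaarMeasure] (E : Subgroup G)
    (hE : IsOpen (E : Set G)) (p : G →* H) (hp : Continuous p)
    (hsurj : ∀ h : H, ∃ e ∈ E, p e = h)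
    (hproper : ∀ C : Set H, IsCompact C → IsClosed C →
      ∃ C' : Set G, IsCompact C' ∧ p ⁻¹' C ∩ (E : Set G) ⊆ C') :
    (Measure.map p (μ.restrict (E : Set G))).IsHaarMeasure := by
  have hinv : (Measure.map p (μ.restrict (E : Set G))).IsMulLeftInvariant := by
    refine ⟨fun h => ?_⟩
    obtain ⟨e, he, rfl⟩ := hsurj h
    refine Measure.ext fun A hA => ?_
    have hm : Measurable fun x : H => p e * x := measurable_const_mul _
    rw [Measure.map_apply hm hA, map_restrict_apply159 μ E p hp (hm hA),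
      map_restrict_apply159 μ E p hp hA]
    have hset : p ⁻¹' ((fun x : H => p e * x) ⁻¹' A) ∩ (E : Set G)
        = (fun g : G => e * g) ⁻¹' (p ⁻¹' A ∩ (E : Set G)) := by
      ext g
      simp only [mem_inter_iff, mem_preimage, map_mul, SetLike.mem_coe]
      constructor
      · rintro ⟨h1, h2⟩
        exact ⟨h1, E.mul_mem he h2⟩
      · rintro ⟨h1, h2⟩
        refine ⟨h1, ?_⟩
        have := E.mul_mem (E.inv_mem he) h2
        simpa using this
    rw [hset]
    exact measure_preimage_mul μ e _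
  refine { toIsMulLeftInvariant := hinv, lt_top_of_isCompact := ?_, toIsOpenPosMeasure := ?_ }
  · intro C hC
    have hcl : IsCompact (closure C) := hC.closure
    obtain ⟨C', hC', hsub⟩ := hproper (closure C) hcl isClosed_closure
    calc Measure.map p (μ.restrict (E : Set G)) C
        ≤ Measure.map p (μ.restrict (E : Set G)) (closure C) := measure_mono subset_closure
      _ = μ (p ⁻¹' closure C ∩ (E : Set G)) :=
          map_restrict_apply159 μ E p hp isClosed_closure.measurableSet
      _ ≤ μ C' := measure_mono hsub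
      _ < ⊤ := hC'.measure_lt_top
  · refine ⟨fun U hU hne => ?_⟩
    rw [map_restrict_apply159 μ E p hp hU.measurableSet]
    obtain ⟨h, hh⟩ := hne
    obtain ⟨e, he, rfl⟩ := hsurj h
    exact ((hU.preimage hp).inter hE).measure_pos μ ⟨e, hh, he⟩ |>.ne'

omit [IsTopologicalGroup G] [IsTopologicalGroup H] in
/-- `∫_E F(p g) dμ(g) = ∫ F d(p_* μ|_E)`. -/
theorem integral_map_restrict159 {X : Type*} [NormedAddCommGroup X] [NormedSpace ℝ X]
    (μ : Measure G) (E : Subgroup G) (p : G →* H) (hp : Continuous p)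
    (F : H → X) (hF : AEStronglyMeasurable F (Measure.map p (μ.restrict (E : Set G)))) :
    ∫ g in (E : Set G), F (p g) ∂μ = ∫ h, F h ∂(Measure.map p (μ.restrict (E : Set G))) :=
  (integral_map hp.measurable.aemeasurable hF).symm

end Push

section Restr

variable {G : Type*} [Group G] [TopologicalSpace G] [IsTopologicalGroup G]
  [MeasurableSpace G] [BorelSpace G]
  {ι : Type*} {X : ι → Type*} [∀ i, Group (X i)] [∀ i, TopologicalSpace (X i)]
  [∀ i, IsTopologicalGroup (X i)] [∀ i, MeasurableSpace (X i)] [∀ i, BorelSpace (X i)]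
  [∀ i, LocallyCompactSpace (X i)] [∀ i, SecondCountableTopology (X i)]

/-- The subgroup `E_S = {g : p_i(g) ∈ K_i for all i ∉ S}`. -/
def restrSub159 (p : ∀ i, G →* X i) (K : ∀ i, Subgroup (X i)) (S : Finset ι) : Subgroup G where
  carrier := {g | ∀ i, i ∉ S → p i g ∈ K i}
  one_mem' := fun i _ => by simp only [map_one]; exact (K i).one_mem
  mul_mem' := fun {a b} ha hb i hi => by
    simp only [map_mul]; exact (K i).mul_mem (ha i hi) (hb i hi)
  inv_mem' := fun {a} ha i hi => by simp only [map_inv]; exact (K i).inv_mem (ha i hi)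

omit [TopologicalSpace G] [IsTopologicalGroup G] [MeasurableSpace G] [BorelSpace G]
  [∀ i, TopologicalSpace (X i)] [∀ i, IsTopologicalGroup (X i)] [∀ i, MeasurableSpace (X i)]
  [∀ i, BorelSpace (X i)] [∀ i, LocallyCompactSpace (X i)]
  [∀ i, SecondCountableTopology (X i)] in
theorem mem_restrSub159 (p : ∀ i, G →* X i) (K : ∀ i, Subgroup (X i)) (S : Finset ι) (g : G) :
    g ∈ restrSub159 p K S ↔ ∀ i, i ∉ S → p i g ∈ K i := Iff.rfl

/-- The projection `g ↦ (p_i g)_{i ∈ S}`. -/
def restrProj159 (p : ∀ i, G →* X i) (S : Finset ι) : G →* (∀ i : S, X i) :=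
  MonoidHom.pi fun i : S => p i

omit [TopologicalSpace G] [IsTopologicalGroup G] [MeasurableSpace G] [BorelSpace G]
  [∀ i, TopologicalSpace (X i)] [∀ i, IsTopologicalGroup (X i)] [∀ i, MeasurableSpace (X i)]
  [∀ i, BorelSpace (X i)] [∀ i, LocallyCompactSpace (X i)]
  [∀ i, SecondCountableTopology (X i)] in
@[simp] theorem restrProj_apply159 (p : ∀ i, G →* X i) (S : Finset ι) (g : G) (i : S) :
    restrProj159 p S g i = p i g := rfl

/-- The image of `μ|_{E_S}` in `∏_{i ∈ S} X i`. -/
def restrMeas159 (μ : Measure G) (p : ∀ i, G →* X i) (K : ∀ i, Subgroup (X i))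
    (S : Finset ι) : Measure (∀ i : S, X i) :=
  Measure.map (restrProj159 p S) (μ.restrict (restrSub159 p K S : Set G))

/-- **`G` IS THE RESTRICTED PRODUCT** of the `X i` with respect to the subgroups `K i`, `i ∉ S₀`
(abstract form). -/
structure IsRestrProd159 (p : ∀ i, G →* X i) (K : ∀ i, Subgroup (X i)) (S₀ : Finset ι) :
    Prop where
  cont : ∀ i, Continuous (p i)
  isOpenK : ∀ i, i ∉ S₀ → IsOpen (K i : Set (X i))
  isOpen : ∀ S : Finset ι, S₀ ⊆ S → IsOpen (restrSub159 p K S : Set G)
  surj : ∀ S : Finset ι, S₀ ⊆ S → ∀ x : (∀ i : S, X i),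
    ∃ g ∈ restrSub159 p K S, restrProj159 p S g = x
  proper : ∀ S : Finset ι, S₀ ⊆ S → ∀ C : ∀ i : ι, Set (X i), (∀ i ∈ S, IsCompact (C i)) →
    ∃ C' : Set G, IsCompact C' ∧ {g | g ∈ restrSub159 p K S ∧ ∀ i ∈ S, p i g ∈ C i} ⊆ C'

variable {p : ∀ i, G →* X i} {K : ∀ i, Subgroup (X i)} {S₀ : Finset ι}

omit [IsTopologicalGroup G] [MeasurableSpace G] [BorelSpace G]
  [∀ i, IsTopologicalGroup (X i)] [∀ i, MeasurableSpace (X i)]
  [∀ i, BorelSpace (X i)] [∀ i, LocallyCompactSpace (X i)]
  [∀ i, SecondCountableTopology (X i)] in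
theorem continuous_restrProj159 (h : IsRestrProd159 p K S₀) (S : Finset ι) :
    Continuous (restrProj159 p S) :=
  continuous_pi fun i => h.cont i

omit [∀ i, LocallyCompactSpace (X i)] in
/-- The image measure is a Haar measure. -/
theorem isHaarMeasure_restrMeas159 (μ : Measure G) [μ.IsHaarMeasure]
    (h : IsRestrProd159 p K S₀) (S : Finset ι) (hS : S₀ ⊆ S) :
    (restrMeas159 μ p K S).IsHaarMeasure := by
  refine isHaarMeasure_map_restrict159 μ (restrSub159 p K S) (h.isOpen S hS) (restrProj159 p S)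
    (continuous_restrProj159 h S) (h.surj S hS) ?_
  intro C hC _
  classical
  obtain ⟨C', hC', hsub⟩ := h.proper S hS
    (fun i => if hi : i ∈ S then (fun x : ∀ i : S, X i => x ⟨i, hi⟩) '' C else ∅)
    (fun i hi => by
      rw [dif_pos hi]
      exact hC.image (continuous_apply (⟨i, hi⟩ : S)))
  refine ⟨C', hC', fun g hg => hsub ⟨hg.2, fun i hi => ?_⟩⟩
  rw [dif_pos hi]
  exact ⟨restrProj159 p S g, hg.1, rfl⟩

omit [IsTopologicalGroup G] [∀ i, IsTopologicalGroup (X i)]
  [∀ i, LocallyCompactSpace (X i)] in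
/-- The measure of a box. -/
theorem restrMeas_box159 (μ : Measure G) (h : IsRestrProd159 p K S₀) (S : Finset ι)
    (C : ∀ i : ι, Set (X i)) (hC : ∀ i ∈ S, MeasurableSet (C i)) :
    restrMeas159 μ p K S (Set.pi univ fun i : S => C i)
      = μ {g | g ∈ restrSub159 p K S ∧ ∀ i ∈ S, p i g ∈ C i} := by
  have hm : MeasurableSet (Set.pi univ fun i : S => C i) :=
    MeasurableSet.univ_pi fun i => hC i i.2
  rw [restrMeas159, map_restrict_apply159 μ _ _ (continuous_restrProj159 h S) hm]
  congr 1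
  ext g
  constructor
  · rintro ⟨h1, h2⟩
    exact ⟨h2, fun i hi => h1 ⟨i, hi⟩ (Set.mem_univ _)⟩
  · rintro ⟨h1, h2⟩
    exact ⟨fun i _ => h2 i.1 i.2, h1⟩

omit [∀ i, SecondCountableTopology (X i)] in
/-- A compact measurable neighbourhood of `1` (positive finite Haar measure). -/
theorem exists_nice_nhds159 (i : ι) (μ' : Measure (X i)) [μ'.IsHaarMeasure] :
    ∃ C : Set (X i), IsCompact C ∧ MeasurableSet C ∧ μ' C ≠ 0 ∧ μ' C ≠ ⊤ := by
  obtain ⟨C, hC, hC1⟩ := exists_compact_mem_nhds (1 : X i)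
  refine ⟨closure C, hC.closure, isClosed_closure.measurableSet, ?_, hC.closure.measure_lt_top.ne⟩
  exact (measure_pos_of_mem_nhds μ' (Filter.mem_of_superset hC1 subset_closure)).ne'

/-- At every level `S ⊇ S₀` the image measure is a positive multiple of the product measure. -/
theorem exists_smul159 (μ : Measure G) [μ.IsHaarMeasure] (h : IsRestrProd159 p K S₀)
    (μ' : ∀ i, Measure (X i)) [∀ i, (μ' i).IsHaarMeasure] (S : Finset ι) (hS : S₀ ⊆ S) :
    ∃ c : NNReal, 0 < c ∧ restrMeas159 μ p K S = c • Measure.pi fun i : S => μ' i := by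
  have hH := isHaarMeasure_restrMeas159 μ h S hS
  exact ⟨haarScalarFactor (restrMeas159 μ p K S) (Measure.pi fun i : S => μ' i),
    haarScalarFactor_pos_of_isHaarMeasure _ _, isMulLeftInvariant_eq_smul _ _⟩

omit [IsTopologicalGroup G] in
/-- THE CONSTANT DOES NOT DEPEND ON `S` (if `μ_i(K_i) = 1` outside `S₀`). -/
theorem const_unique159 (μ : Measure G) (h : IsRestrProd159 p K S₀)
    (μ' : ∀ i, Measure (X i)) [∀ i, (μ' i).IsHaarMeasure]
    (hK : ∀ i, i ∉ S₀ → μ' i (K i : Set (X i)) = 1)
    (S S' : Finset ι) (hS : S₀ ⊆ S) (hSS' : S ⊆ S') (c c' : NNReal)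
    (hc : restrMeas159 μ p K S = c • Measure.pi fun i : S => μ' i)
    (hc' : restrMeas159 μ p K S' = c' • Measure.pi fun i : S' => μ' i) :
    c' = c := by
  classical
  choose C hCc hCm hC0 hCt using fun i => exists_nice_nhds159 i (μ' i)
  set C' : ∀ i, Set (X i) := fun i => if i ∈ S then C i else (K i : Set (X i)) with hC'
  have hC'm : ∀ i ∈ S', MeasurableSet (C' i) := by
    intro i _
    by_cases hi : i ∈ S
    · simp only [hC', if_pos hi]; exact hCm i
    · simp only [hC', if_neg hi]
      exact (h.isOpenK i fun h0 => hi (hS h0)).measurableSet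
  have hset : {g | g ∈ restrSub159 p K S' ∧ ∀ i ∈ S', p i g ∈ C' i}
      = {g | g ∈ restrSub159 p K S ∧ ∀ i ∈ S, p i g ∈ C i} := by
    ext g
    constructor
    · rintro ⟨h1, h2⟩
      refine ⟨fun i hi => ?_, fun i hi => ?_⟩
      · by_cases hi' : i ∈ S'
        · have := h2 i hi'
          simpa only [hC', if_neg hi, SetLike.mem_coe] using this
        · exact h1 i hi'
      · have := h2 i (hSS' hi)
        simpa only [hC', if_pos hi] using this
    · rintro ⟨h1, h2⟩
      refine ⟨fun i hi => h1 i fun hiS => hi (hSS' hiS), fun i _ => ?_⟩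
      by_cases hi : i ∈ S
      · simp only [hC', if_pos hi]; exact h2 i hi
      · simp only [hC', if_neg hi]; exact h1 i hi
  have e1 := restrMeas_box159 μ h S C fun i _ => hCm i
  have e2 := restrMeas_box159 μ h S' C' hC'm
  rw [hset, ← e1, hc, hc'] at e2
  simp only [Measure.smul_apply, Measure.pi_pi] at e2
  have hprod : ∏ i : S', μ' i (C' i) = ∏ i : S, μ' i (C i) := by
    rw [Finset.prod_coe_sort S' fun i => μ' i (C' i), Finset.prod_coe_sort S fun i => μ' i (C i),
      ← Finset.prod_sdiff hSS']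
    have h1 : ∏ i ∈ S' \ S, μ' i (C' i) = 1 := by
      refine Finset.prod_eq_one fun i hi => ?_
      have hi' := (Finset.mem_sdiff.mp hi).2
      simp only [hC', if_neg hi']
      exact hK i fun h0 => hi' (hS h0)
    have h2 : ∏ i ∈ S, μ' i (C' i) = ∏ i ∈ S, μ' i (C i) := by
      refine Finset.prod_congr rfl fun i hi => ?_
      simp only [hC', if_pos hi]
    rw [h1, h2, one_mul]
  rw [hprod] at e2
  have hP0 : ∏ i : S, μ' i (C i) ≠ 0 := Finset.prod_ne_zero_iff.mpr fun i _ => hC0 i
  have hPt : ∏ i : S, μ' i (C i) ≠ ⊤ := ENNReal.prod_ne_top fun i _ => hCt i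
  simp only [ENNReal.smul_def, smul_eq_mul] at e2
  have := (ENNReal.mul_left_inj hP0 hPt).mp e2
  exact_mod_cast this

/-- **THE SPLITTING OF THE HAAR MEASURE (measure form).**  ONE constant for all `S ⊇ S₀`. -/
theorem exists_const159 (μ : Measure G) [μ.IsHaarMeasure] (h : IsRestrProd159 p K S₀)
    (μ' : ∀ i, Measure (X i)) [∀ i, (μ' i).IsHaarMeasure]
    (hK : ∀ i, i ∉ S₀ → μ' i (K i : Set (X i)) = 1) :
    ∃ c : NNReal, 0 < c ∧ ∀ S : Finset ι, S₀ ⊆ S →
      restrMeas159 μ p K S = c • Measure.pi fun i : S => μ' i := by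
  obtain ⟨c, hc0, hc⟩ := exists_smul159 μ h μ' S₀ (Finset.Subset.refl _)
  refine ⟨c, hc0, fun S hS => ?_⟩
  obtain ⟨c', -, hc'⟩ := exists_smul159 μ h μ' S hS
  rw [hc', const_unique159 μ h μ' hK S₀ S (Finset.Subset.refl _) hS c c' hc hc']

open Classical in
/-- THE CONSTANT of `μ` against the product of the local measures. -/
def restrConst159 (μ : Measure G) (p : ∀ i, G →* X i) (K : ∀ i, Subgroup (X i))
    (μ' : ∀ i, Measure (X i)) (S₀ : Finset ι) : NNReal :=
  if h : ∃ c : NNReal, 0 < c ∧ ∀ S : Finset ι, S₀ ⊆ S →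
      restrMeas159 μ p K S = c • Measure.pi fun i : S => μ' i
  then Classical.choose h else 1

omit [IsTopologicalGroup G] [BorelSpace G] [∀ i, IsTopologicalGroup (X i)]
  [∀ i, BorelSpace (X i)] [∀ i, LocallyCompactSpace (X i)]
  [∀ i, SecondCountableTopology (X i)] [TopologicalSpace G] [∀ i, TopologicalSpace (X i)] in
/-- The constant is positive (always). -/
theorem restrConst_pos159 (μ : Measure G) (p : ∀ i, G →* X i) (K : ∀ i, Subgroup (X i))
    (μ' : ∀ i, Measure (X i)) (S₀ : Finset ι) :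
    (0 : ℝ) < (restrConst159 μ p K μ' S₀ : ℝ) := by
  classical
  unfold restrConst159
  split_ifs with h
  · exact_mod_cast (Classical.choose_spec h).1
  · simp

/-- **THE SPLITTING OF THE HAAR MEASURE (measure form).** -/
theorem restrMeas_eq159 (μ : Measure G) [μ.IsHaarMeasure] (h : IsRestrProd159 p K S₀)
    (μ' : ∀ i, Measure (X i)) [∀ i, (μ' i).IsHaarMeasure]
    (hK : ∀ i, i ∉ S₀ → μ' i (K i : Set (X i)) = 1) (S : Finset ι) (hS : S₀ ⊆ S) :
    restrMeas159 μ p K S = restrConst159 μ p K μ' S₀ • Measure.pi fun i : S => μ' i := by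
  classical
  have hex := exists_const159 μ h μ' hK
  unfold restrConst159
  rw [dif_pos hex]
  exact (Classical.choose_spec hex).2 S hS

/-- **THE SPLITTING OF THE HAAR MEASURE (integral form).** -/
theorem integral_restr159 (μ : Measure G) [μ.IsHaarMeasure] (h : IsRestrProd159 p K S₀)
    (μ' : ∀ i, Measure (X i)) [∀ i, (μ' i).IsHaarMeasure]
    (hK : ∀ i, i ∉ S₀ → μ' i (K i : Set (X i)) = 1) (S : Finset ι) (hS : S₀ ⊆ S)
    (F : (∀ i : S, X i) → ℂ) (hF : AEStronglyMeasurable F (Measure.pi fun i : S => μ' i)) :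
    ∫ g in (restrSub159 p K S : Set G), F (restrProj159 p S g) ∂μ
      = ((restrConst159 μ p K μ' S₀ : ℝ) : ℂ) * ∫ x, F x ∂(Measure.pi fun i : S => μ' i) := by
  have e : Measure.map (restrProj159 p S) (μ.restrict (restrSub159 p K S : Set G))
      = restrConst159 μ p K μ' S₀ • Measure.pi fun i : S => μ' i :=
    restrMeas_eq159 μ h μ' hK S hS
  have hF' : AEStronglyMeasurable F
      (Measure.map (restrProj159 p S) (μ.restrict (restrSub159 p K S : Set G))) := by
    rw [e]
    exact hF.smul_measure _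
  rw [integral_map_restrict159 μ _ _ (continuous_restrProj159 h S) F hF', e,
    integral_smul_nnreal_measure, NNReal.smul_def, Complex.real_smul]

/-- **THE SPLITTING OF THE HAAR MEASURE (integral form, products).** -/
theorem integral_restr_prod159 (μ : Measure G) [μ.IsHaarMeasure] (h : IsRestrProd159 p K S₀)
    (μ' : ∀ i, Measure (X i)) [∀ i, (μ' i).IsHaarMeasure]
    (hK : ∀ i, i ∉ S₀ → μ' i (K i : Set (X i)) = 1) (S : Finset ι) (hS : S₀ ⊆ S)
    (f : ∀ i, X i → ℂ) (hf : ∀ i ∈ S, Measurable (f i)) :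
    ∫ g in (restrSub159 p K S : Set G), ∏ i ∈ S, f i (p i g) ∂μ
      = ((restrConst159 μ p K μ' S₀ : ℝ) : ℂ) * ∏ i ∈ S, ∫ x, f i x ∂(μ' i) := by
  have hF : Measurable fun x : (∀ i : S, X i) => ∏ i : S, f i (x i) :=
    Finset.measurable_prod _ fun i _ => (hf i i.2).comp (measurable_pi_apply i)
  have e := integral_restr159 μ h μ' hK S hS _ hF.aestronglyMeasurable
  rw [integral_fintype_prod_eq_prod (fun i : S => f i)] at e
  rw [Finset.prod_coe_sort S fun i => ∫ x, f i x ∂(μ' i)] at e
  rw [← e]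
  refine integral_congr_ae (Filter.Eventually.of_forall fun g => ?_)
  simp only [restrProj_apply159]
  exact (Finset.prod_coe_sort S fun i => f i (p i g)).symm

end Restr

end Fermat.Agent.LT.T7.H159

end
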