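import Mathlib
import Fermat.Agent.LT.H556.A0
import Fermat.Agent.LT.T5.Spec
import Fermat.Agent.LT.H11.LC
import Fermat.Agent.LT.H11.SC
import Fermat.Agent.LT.T7.H159.HaarSplit

/-!
# Row LT, tower T7, field `matched`, core node CutIntC305 -- ASSET "RESTR-GL" (helper159)

OFF-MAIN.  No hole, nothing assumed.  ADDITIVE (suffix `159`).

`GL₂(𝔸_K)` IS THE RESTRICTED PRODUCT of the groups `GL₂(ℂ)` (infinite places, `K` totally
complex) and `GL₂(K_v)` (finite places) with respect to the subgroups `GL₂(𝒪_v)`, in the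
abstract sense `IsRestrProd159` of `HaarSplit.lean`; so the Haar measure of `GL₂(𝔸_K)` splits
(`integral_restr159`, `integral_restr_prod159`).

* `isRestrProd_GL159 : TotCplx → IsRestrProd159 (locProj159 K) (locK159 K) (baseSet159 K T₀)`
  (continuity of the components, `GL₂(𝒪_v)` open, `E_S` open (`isOpen_restrSub159`),
  surjectivity (`surj_restr159`, `mkGL159` = the adelic matrix with given components),
  properness (`proper_restr159`, `isCompact_GLBox159`, `isCompact_finBox159`)).
* **`haarSplit_GL159`**: `μ` Haar on `GL₂(𝔸_K)`, `μI w` Haar on `GL₂(ℂ)`, `μF v` Haar on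
  `GL₂(K_v)` with `μF v (GL₂(𝒪_v)) = 1` for `v ∉ T₀`: there is ONE `c > 0` such that for every
  finite `T ⊇ T₀` and all measurable `FF v`, `FI w`

      ∫_{E_T} ∏_{v ∈ T} FF_v(g_v) ∏_w FI_w(g_w) dμ(g) = c ∏_{v ∈ T} ∫ FF_v dμF_v ∏_w ∫ FI_w dμI_w

  with `E_T = {g : ∀ v ∉ T, IsIntegralAt v g ∧ IsIntegralAt v g⁻¹}` (`OutT305 T`), components
  `GL.map (T5.finHom v)`, `GL.map (T5.infHom w)` (`finGL305`, `infGL305`); all measures and
  measurability with respect to `borel _`.
* For functions of several places at once (the places over `v` upstairs): `integral_restr159`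
  with `isRestrProd_GL159` (any a.e. strongly measurable `F` on `∏_{i ∈ S} LocGL159 K i`).

Imports: `H11/LC.lean`, `H11/SC.lean` (helper11, byte-identical copies of the master closure),
`T5/Spec` v4, A0.
-/

set_option autoImplicit false

open IsDedekindDomain NumberField MeasureTheory
open scoped RestrictedProduct

noncomputable section

namespace Fermat.Agent.LT.T7.H159

open Fermat.Agent.LT.H556.A0 Fermat.Agent.LT

variable (K : Type) [Field K] [NumberField K]

/-- The places of `K`: infinite and finite. -/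
abbrev Pl159 : Type := InfinitePlace K ⊕ HeightOneSpectrum (𝓞 K)

/-- The local groups: `GL₂(ℂ)` at the infinite places, `GL₂(K_v)` at the finite places. -/
def LocGL159 : Pl159 K → Type
  | Sum.inl _ => GL (Fin 2) ℂ
  | Sum.inr v => GL (Fin 2) (v.adicCompletion K)

instance instGroupLocGL159 : ∀ i : Pl159 K, Group (LocGL159 K i)
  | Sum.inl _ => inferInstanceAs (Group (GL (Fin 2) ℂ))
  | Sum.inr v => inferInstanceAs (Group (GL (Fin 2) (v.adicCompletion K)))

instance instTopLocGL159 : ∀ i : Pl159 K, TopologicalSpace (LocGL159 K i)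
  | Sum.inl _ => inferInstanceAs (TopologicalSpace (GL (Fin 2) ℂ))
  | Sum.inr v => inferInstanceAs (TopologicalSpace (GL (Fin 2) (v.adicCompletion K)))

instance instTopGroupLocGL159 : ∀ i : Pl159 K, IsTopologicalGroup (LocGL159 K i)
  | Sum.inl _ => inferInstanceAs (IsTopologicalGroup (GL (Fin 2) ℂ))
  | Sum.inr v => inferInstanceAs (IsTopologicalGroup (GL (Fin 2) (v.adicCompletion K)))

instance instMeasLocGL159 : ∀ i : Pl159 K, MeasurableSpace (LocGL159 K i) :=
  fun i => borel (LocGL159 K i)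

instance instBorelLocGL159 : ∀ i : Pl159 K, BorelSpace (LocGL159 K i) :=
  fun _ => ⟨rfl⟩

theorem locallyCompactSpace_GLC159 : LocallyCompactSpace (GL (Fin 2) ℂ) := by
  have := H11.LC.locallyCompactSpace_matrix_h11 (Fin 2) ℂ
  have := H11.LC.t2Space_matrix_h11 (Fin 2) ℂ
  infer_instance

theorem secondCountable_GLC159 : SecondCountableTopology (GL (Fin 2) ℂ) := by
  have := H11.SC.secondCountableTopology_matrix_h11 (Fin 2) ℂ
  exact H11.SC.secondCountableTopology_units_h11 _

theorem secondCountable_GLv159 (v : HeightOneSpectrum (𝓞 K)) :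
    SecondCountableTopology (GL (Fin 2) (v.adicCompletion K)) := by
  have := H11.SC.secondCountableTopology_adicCompletion_h11 K v
  have := H11.SC.secondCountableTopology_matrix_h11 (Fin 2) (v.adicCompletion K)
  exact H11.SC.secondCountableTopology_units_h11 _

instance instLCLocGL159 : ∀ i : Pl159 K, LocallyCompactSpace (LocGL159 K i)
  | Sum.inl _ => locallyCompactSpace_GLC159
  | Sum.inr v => H11.LC.locallyCompactSpace_GL2_adicCompletion_h11 K v

instance instSCLocGL159 : ∀ i : Pl159 K, SecondCountableTopology (LocGL159 K i)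
  | Sum.inl _ => secondCountable_GLC159
  | Sum.inr v => secondCountable_GLv159 K v

/-! ## The components, the subgroups -/

/-- The components `GL₂(𝔸_K) → GL₂(ℂ)`, `GL₂(𝔸_K) → GL₂(K_v)`
(`infGL305`, `finGL305` of helper305). -/
def locProj159 : ∀ i : Pl159 K, G K →* LocGL159 K i
  | Sum.inl w => Matrix.GeneralLinearGroup.map (T5.infHom w)
  | Sum.inr v => Matrix.GeneralLinearGroup.map (T5.finHom v)

variable {K}

/-- Entries of a product of integral matrices. -/
theorem mul_entry_mem159 {v : HeightOneSpectrum (𝓞 K)}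
    {x y : Matrix (Fin 2) (Fin 2) (v.adicCompletion K)}
    (hx : ∀ i j, x i j ∈ v.adicCompletionIntegers K)
    (hy : ∀ i j, y i j ∈ v.adicCompletionIntegers K) (i j : Fin 2) :
    (x * y) i j ∈ v.adicCompletionIntegers K := by
  rw [Matrix.mul_apply]
  exact sum_mem fun k _ => mul_mem (hx i k) (hy k j)

theorem one_entry_mem159 (v : HeightOneSpectrum (𝓞 K)) (i j : Fin 2) :
    (1 : Matrix (Fin 2) (Fin 2) (v.adicCompletion K)) i j ∈ v.adicCompletionIntegers K := by
  by_cases h : i = j
  · rw [h, Matrix.one_apply_eq]; exact one_mem _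
  · rw [Matrix.one_apply_ne h]; exact zero_mem _

variable (K)

/-- `GL₂(𝒪_v)` as a subgroup of `GL₂(K_v)`. -/
def intGL159 (v : HeightOneSpectrum (𝓞 K)) : Subgroup (GL (Fin 2) (v.adicCompletion K)) where
  carrier := {x |
    (∀ i j, (x : Matrix (Fin 2) (Fin 2) (v.adicCompletion K)) i j
        ∈ v.adicCompletionIntegers K) ∧
      ∀ i j, ((x⁻¹ : GL (Fin 2) (v.adicCompletion K)) :
        Matrix (Fin 2) (Fin 2) (v.adicCompletion K)) i j ∈ v.adicCompletionIntegers K}
  one_mem' := ⟨fun i j => one_entry_mem159 v i j, fun i j => by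
    rw [inv_one]; exact one_entry_mem159 v i j⟩
  mul_mem' := by
    rintro a b ⟨ha, ha'⟩ ⟨hb, hb'⟩
    refine ⟨fun i j => ?_, fun i j => ?_⟩
    · rw [Units.val_mul]; exact mul_entry_mem159 ha hb i j
    · rw [mul_inv_rev, Units.val_mul]; exact mul_entry_mem159 hb' ha' i j
  inv_mem' := by
    rintro a ⟨ha, ha'⟩
    exact ⟨ha', by rw [inv_inv]; exact ha⟩

/-- The subgroups: `GL₂(𝒪_v)` at the finite places (`⊤` at the infinite places: they always
belong to `S`). -/
def locK159 : ∀ i : Pl159 K, Subgroup (LocGL159 K i)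
  | Sum.inl _ => ⊤
  | Sum.inr v => intGL159 K v

open Classical in
/-- The base set: all infinite places and the finite places of `T₀`. -/
def baseSet159 (T₀ : Finset (HeightOneSpectrum (𝓞 K))) : Finset (Pl159 K) :=
  (Finset.univ.image Sum.inl) ∪ (T₀.image Sum.inr)

variable {K}

theorem inl_mem_baseSet159 (T₀ : Finset (HeightOneSpectrum (𝓞 K))) (w : InfinitePlace K) :
    (Sum.inl w : Pl159 K) ∈ baseSet159 K T₀ := by
  classical
  exact Finset.mem_union_left _ (Finset.mem_image_of_mem _ (Finset.mem_univ w))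

theorem inr_mem_baseSet159 (T₀ : Finset (HeightOneSpectrum (𝓞 K)))
    (v : HeightOneSpectrum (𝓞 K)) :
    (Sum.inr v : Pl159 K) ∈ baseSet159 K T₀ ↔ v ∈ T₀ := by
  classical
  simp [baseSet159]

/-! ## Continuity -/

theorem continuous_finHom159 (v : HeightOneSpectrum (𝓞 K)) : Continuous (T5.finHom v) :=
  (RestrictedProduct.continuous_eval v).comp continuous_snd

theorem continuous_infHom159 (w : InfinitePlace K) : Continuous (T5.infHom w) :=
  (InfinitePlace.Completion.isometry_extensionEmbedding w).continuous.comp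
    ((continuous_apply w).comp continuous_fst)

theorem continuous_GLmap159 {R S : Type*} [CommRing R] [CommRing S] [TopologicalSpace R]
    [TopologicalSpace S] (f : R →+* S) (hf : Continuous f) :
    Continuous (Matrix.GeneralLinearGroup.map (n := Fin 2) f) :=
  Continuous.units_map _ (continuous_id.matrix_map hf)

theorem continuous_locProj159 (i : Pl159 K) : Continuous (locProj159 K i) := by
  cases i with
  | inl w => exact continuous_GLmap159 _ (continuous_infHom159 w)
  | inr v => exact continuous_GLmap159 _ (continuous_finHom159 v)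

theorem continuous_entryGL159 {R : Type*} [CommRing R] [TopologicalSpace R] (i j : Fin 2) :
    Continuous fun x : GL (Fin 2) R => (x : Matrix (Fin 2) (Fin 2) R) i j :=
  (Units.continuous_val (M := Matrix (Fin 2) (Fin 2) R)).matrix_elem i j

theorem continuous_entryInvGL159 {R : Type*} [CommRing R] [TopologicalSpace R] (i j : Fin 2) :
    Continuous fun x : GL (Fin 2) R => ((x⁻¹ : GL (Fin 2) R) : Matrix (Fin 2) (Fin 2) R) i j :=
  (Units.continuous_coe_inv (M := Matrix (Fin 2) (Fin 2) R)).matrix_elem i j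

/-- `GL₂(𝒪_v)` is open in `GL₂(K_v)`. -/
theorem isOpen_intGL159 (v : HeightOneSpectrum (𝓞 K)) :
    IsOpen (intGL159 K v : Set (GL (Fin 2) (v.adicCompletion K))) := by
  have hO : IsOpen (v.adicCompletionIntegers K : Set (v.adicCompletion K)) :=
    Valued.isOpen_valuationSubring _
  have h1 : IsOpen {x : GL (Fin 2) (v.adicCompletion K) |
      ∀ i j, (x : Matrix (Fin 2) (Fin 2) (v.adicCompletion K)) i j
        ∈ v.adicCompletionIntegers K} := by
    simp only [Set.ofPred_forall]
    exact isOpen_iInter_of_finite fun i => isOpen_iInter_of_finite fun j =>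
      hO.preimage (continuous_entryGL159 i j)
  have h2 : IsOpen {x : GL (Fin 2) (v.adicCompletion K) |
      ∀ i j, ((x⁻¹ : GL (Fin 2) (v.adicCompletion K)) :
        Matrix (Fin 2) (Fin 2) (v.adicCompletion K)) i j ∈ v.adicCompletionIntegers K} := by
    simp only [Set.ofPred_forall]
    exact isOpen_iInter_of_finite fun i => isOpen_iInter_of_finite fun j =>
      hO.preimage (continuous_entryInvGL159 i j)
  exact h1.inter h2

/-- The adeles which are integral at the places of `q` form an open set. -/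
theorem isOpen_intOutside159 (q : HeightOneSpectrum (𝓞 K) → Prop) :
    IsOpen {a : Adl K | ∀ v, q v → a.2 v ∈ v.adicCompletionIntegers K} := by
  have h : IsOpen {x : FiniteAdeleRing (𝓞 K) K | ∀ v, q v → x v ∈ v.adicCompletionIntegers K} :=
    RestrictedProduct.isOpen_forall_imp_mem (fun v => Valued.isOpen_valuationSubring _)
  exact h.preimage continuous_snd

theorem mem_restrSub_iff159 (S : Finset (Pl159 K)) (g : G K) :
    g ∈ restrSub159 (locProj159 K) (locK159 K) S ↔
      ∀ v : HeightOneSpectrum (𝓞 K), (Sum.inr v : Pl159 K) ∉ S →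
        (∀ i j, ((g : Matrix (Fin 2) (Fin 2) (Adl K)) i j).2 v ∈ v.adicCompletionIntegers K) ∧
          ∀ i j, (((g⁻¹ : G K) : Matrix (Fin 2) (Fin 2) (Adl K)) i j).2 v
            ∈ v.adicCompletionIntegers K := by
  constructor
  · intro h v hv
    have := h (Sum.inr v) hv
    exact this
  · intro h i hi
    cases i with
    | inl w => exact Subgroup.mem_top _
    | inr v => exact h v hi

/-- `E_S` is open. -/
theorem isOpen_restrSub159 (S : Finset (Pl159 K)) :
    IsOpen (restrSub159 (locProj159 K) (locK159 K) S : Set (G K)) := by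
  have hset : (restrSub159 (locProj159 K) (locK159 K) S : Set (G K))
      = (⋂ i : Fin 2, ⋂ j : Fin 2,
          (fun g : G K => (g : Matrix (Fin 2) (Fin 2) (Adl K)) i j) ⁻¹'
            {a : Adl K | ∀ v, (Sum.inr v : Pl159 K) ∉ S → a.2 v ∈ v.adicCompletionIntegers K})
        ∩ (⋂ i : Fin 2, ⋂ j : Fin 2,
          (fun g : G K => ((g⁻¹ : G K) : Matrix (Fin 2) (Fin 2) (Adl K)) i j) ⁻¹'
            {a : Adl K | ∀ v, (Sum.inr v : Pl159 K) ∉ S → a.2 v ∈ v.adicCompletionIntegers K}) := by
    ext g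
    simp only [SetLike.mem_coe, mem_restrSub_iff159, Set.mem_inter_iff, Set.mem_iInter,
      Set.mem_preimage, Set.mem_ofPred_eq]
    constructor
    · intro h
      exact ⟨fun i j v hv => (h v hv).1 i j, fun i j v hv => (h v hv).2 i j⟩
    · rintro ⟨h1, h2⟩ v hv
      exact ⟨fun i j => h1 i j v hv, fun i j => h2 i j v hv⟩
  rw [hset]
  refine IsOpen.inter ?_ ?_
  · exact isOpen_iInter_of_finite fun i => isOpen_iInter_of_finite fun j =>
      (isOpen_intOutside159 _).preimage (continuous_entryGL159 i j)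
  · exact isOpen_iInter_of_finite fun i => isOpen_iInter_of_finite fun j =>
      (isOpen_intOutside159 _).preimage (continuous_entryInvGL159 i j)

/-! ## Adelic matrices from local matrices -/

theorem adele_ext159 {a b : Adl K} (h1 : ∀ w : InfinitePlace K, a.1 w = b.1 w)
    (h2 : ∀ v : HeightOneSpectrum (𝓞 K), a.2 v = b.2 v) : a = b :=
  Prod.ext (funext h1) (FiniteAdeleRing.ext (R := 𝓞 K) (K := K) h2)

/-- The component at the infinite place `w`, in the completion. -/
def evInf159 (w : InfinitePlace K) : Adl K →+* w.Completion :=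
  (Pi.evalRingHom (fun w : InfinitePlace K => w.Completion) w).comp
    (RingHom.fst (InfiniteAdeleRing K) (FiniteAdeleRing (𝓞 K) K))

theorem adMat_ext159 {M N : Matrix (Fin 2) (Fin 2) (Adl K)}
    (h1 : ∀ w : InfinitePlace K, M.map (evInf159 w) = N.map (evInf159 w))
    (h2 : ∀ v : HeightOneSpectrum (𝓞 K), M.map (T5.finHom v) = N.map (T5.finHom v)) :
    M = N := by
  ext i j
  refine adele_ext159 (fun w => ?_) (fun v => ?_)
  · exact congrFun (congrFun (h1 w) i) j
  · exact congrFun (congrFun (h2 v) i) j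

/-- The adelic matrix with the components `a w`, `b v`. -/
def mkMat159 (a : ∀ w : InfinitePlace K, Matrix (Fin 2) (Fin 2) w.Completion)
    (b : ∀ v : HeightOneSpectrum (𝓞 K), Matrix (Fin 2) (Fin 2) (v.adicCompletion K))
    (hb : ∀ᶠ v in Filter.cofinite, ∀ i j, b v i j ∈ v.adicCompletionIntegers K) :
    Matrix (Fin 2) (Fin 2) (Adl K) :=
  fun i j => ((fun w => a w i j : InfiniteAdeleRing K),
    (⟨fun v => b v i j, hb.mono fun _ h => h i j⟩ : FiniteAdeleRing (𝓞 K) K))

theorem mkMat_inf159 (a : ∀ w : InfinitePlace K, Matrix (Fin 2) (Fin 2) w.Completion)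
    (b : ∀ v : HeightOneSpectrum (𝓞 K), Matrix (Fin 2) (Fin 2) (v.adicCompletion K))
    (hb : ∀ᶠ v in Filter.cofinite, ∀ i j, b v i j ∈ v.adicCompletionIntegers K)
    (w : InfinitePlace K) : (mkMat159 a b hb).map (evInf159 w) = a w := rfl

theorem mkMat_fin159 (a : ∀ w : InfinitePlace K, Matrix (Fin 2) (Fin 2) w.Completion)
    (b : ∀ v : HeightOneSpectrum (𝓞 K), Matrix (Fin 2) (Fin 2) (v.adicCompletion K))
    (hb : ∀ᶠ v in Filter.cofinite, ∀ i j, b v i j ∈ v.adicCompletionIntegers K)
    (v : HeightOneSpectrum (𝓞 K)) : (mkMat159 a b hb).map (T5.finHom v) = b v := rfl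

theorem mkMat_mul159 (a a' : ∀ w : InfinitePlace K, Matrix (Fin 2) (Fin 2) w.Completion)
    (b b' : ∀ v : HeightOneSpectrum (𝓞 K), Matrix (Fin 2) (Fin 2) (v.adicCompletion K))
    (hb : ∀ᶠ v in Filter.cofinite, ∀ i j, b v i j ∈ v.adicCompletionIntegers K)
    (hb' : ∀ᶠ v in Filter.cofinite, ∀ i j, b' v i j ∈ v.adicCompletionIntegers K)
    (ha1 : ∀ w, a w * a' w = 1) (hb1 : ∀ v, b v * b' v = 1) :
    mkMat159 a b hb * mkMat159 a' b' hb' = 1 := by
  refine adMat_ext159 (fun w => ?_) (fun v => ?_)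
  · rw [Matrix.map_mul, mkMat_inf159, mkMat_inf159, ha1 w, Matrix.map_one _ (map_zero _)
      (map_one _)]
  · rw [Matrix.map_mul, mkMat_fin159, mkMat_fin159, hb1 v, Matrix.map_one _ (map_zero _)
      (map_one _)]

/-- The element of `GL₂(𝔸_K)` with the components `a w`, `b v`. -/
def mkGL159 (a : ∀ w : InfinitePlace K, GL (Fin 2) w.Completion)
    (b : ∀ v : HeightOneSpectrum (𝓞 K), GL (Fin 2) (v.adicCompletion K))
    (hb : ∀ᶠ v in Filter.cofinite, b v ∈ intGL159 K v) : G K where
  val := mkMat159 (fun w => (a w : Matrix (Fin 2) (Fin 2) w.Completion))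
    (fun v => (b v : Matrix (Fin 2) (Fin 2) (v.adicCompletion K))) (hb.mono fun _ h => h.1)
  inv := mkMat159 (fun w => ((a w)⁻¹ : GL (Fin 2) w.Completion))
    (fun v => ((b v)⁻¹ : GL (Fin 2) (v.adicCompletion K))) (hb.mono fun _ h => h.2)
  val_inv := mkMat_mul159 _ _ _ _ _ _ (fun w => by rw [← Units.val_mul, mul_inv_cancel]; rfl)
    (fun v => by rw [← Units.val_mul, mul_inv_cancel]; rfl)
  inv_val := mkMat_mul159 _ _ _ _ _ _ (fun w => by rw [← Units.val_mul, inv_mul_cancel]; rfl)
    (fun v => by rw [← Units.val_mul, inv_mul_cancel]; rfl)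

theorem mkGL_fin159 (a : ∀ w : InfinitePlace K, GL (Fin 2) w.Completion)
    (b : ∀ v : HeightOneSpectrum (𝓞 K), GL (Fin 2) (v.adicCompletion K))
    (hb : ∀ᶠ v in Filter.cofinite, b v ∈ intGL159 K v) (v : HeightOneSpectrum (𝓞 K)) :
    Matrix.GeneralLinearGroup.map (T5.finHom v) (mkGL159 a b hb) = b v :=
  Units.ext rfl

theorem mkGL_inf159 (a : ∀ w : InfinitePlace K, GL (Fin 2) w.Completion)
    (b : ∀ v : HeightOneSpectrum (𝓞 K), GL (Fin 2) (v.adicCompletion K))
    (hb : ∀ᶠ v in Filter.cofinite, b v ∈ intGL159 K v) (w : InfinitePlace K) :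
    Matrix.GeneralLinearGroup.map (T5.infHom w) (mkGL159 a b hb)
      = Matrix.GeneralLinearGroup.map (InfinitePlace.Completion.extensionEmbedding w) (a w) :=
  Units.ext rfl

/-! ## Surjectivity -/

omit [NumberField K] in
theorem finite_inr_mem159 (S : Finset (Pl159 K)) :
    {v : HeightOneSpectrum (𝓞 K) | (Sum.inr v : Pl159 K) ∈ S}.Finite :=
  (S.finite_toSet.preimage (Sum.inr_injective.injOn)).subset fun _ h => h

omit [NumberField K] in
theorem eventually_notMem159 (S : Finset (Pl159 K)) :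
    ∀ᶠ v : HeightOneSpectrum (𝓞 K) in Filter.cofinite, (Sum.inr v : Pl159 K) ∉ S := by
  rw [Filter.eventually_cofinite]
  refine (finite_inr_mem159 S).subset fun v hv => ?_
  simpa using hv

open Classical in
/-- `(p_i)_{i ∈ S}` maps `E_S` onto the product (`K` totally complex). -/
theorem surj_restr159 (hK : ∀ w : InfinitePlace K, w.IsComplex)
    (S : Finset (Pl159 K)) (hS : ∀ w : InfinitePlace K, (Sum.inl w : Pl159 K) ∈ S)
    (x : ∀ i : S, LocGL159 K i) :
    ∃ g ∈ restrSub159 (locProj159 K) (locK159 K) S,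
      restrProj159 (locProj159 K) S g = x := by
  set a : ∀ w : InfinitePlace K, GL (Fin 2) w.Completion := fun w =>
    Matrix.GeneralLinearGroup.map
      ((InfinitePlace.Completion.ringEquivComplexOfIsComplex (hK w)).symm : ℂ →+* w.Completion)
      (x ⟨Sum.inl w, hS w⟩ : GL (Fin 2) ℂ) with ha
  set b : ∀ v : HeightOneSpectrum (𝓞 K), GL (Fin 2) (v.adicCompletion K) := fun v =>
    if h : (Sum.inr v : Pl159 K) ∈ S then (x ⟨Sum.inr v, h⟩ : GL (Fin 2) (v.adicCompletion K))
    else 1 with hb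
  have hb1 : ∀ v : HeightOneSpectrum (𝓞 K), (Sum.inr v : Pl159 K) ∉ S → b v = 1 := by
    intro v hv
    exact dif_neg hv
  have hbint : ∀ᶠ v in Filter.cofinite, b v ∈ intGL159 K v :=
    (eventually_notMem159 S).mono fun v hv => by
      rw [hb1 v hv]; exact (intGL159 K v).one_mem
  refine ⟨mkGL159 a b hbint, ?_, ?_⟩
  · intro i hi
    cases i with
    | inl w => exact Subgroup.mem_top _
    | inr v =>
      have e : locProj159 K (Sum.inr v) (mkGL159 a b hbint) = b v := mkGL_fin159 a b hbint v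
      rw [e, hb1 v hi]
      exact (intGL159 K v).one_mem
  · funext i
    obtain ⟨i, hi⟩ := i
    cases i with
    | inl w =>
      have e : locProj159 K (Sum.inl w) (mkGL159 a b hbint)
          = Matrix.GeneralLinearGroup.map (InfinitePlace.Completion.extensionEmbedding w) (a w) :=
        mkGL_inf159 a b hbint w
      rw [restrProj_apply159, e]
      refine Units.ext ?_
      ext k l
      simp only [ha, Matrix.GeneralLinearGroup.map_apply]
      exact (InfinitePlace.Completion.ringEquivComplexOfIsComplex (hK w)).apply_symm_apply _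
    | inr v =>
      have e : locProj159 K (Sum.inr v) (mkGL159 a b hbint) = b v := mkGL_fin159 a b hbint v
      rw [restrProj_apply159, e]
      exact dif_pos hi

/-! ## Properness -/

/-- The entries of the elements of `C` and of their inverses. -/
def entrySet159 {R : Type*} [CommRing R] (C : Set (GL (Fin 2) R)) : Set R :=
  ⋃ i : Fin 2, ⋃ j : Fin 2,
    ((fun x : GL (Fin 2) R => (x : Matrix (Fin 2) (Fin 2) R) i j) '' C) ∪
      ((fun x : GL (Fin 2) R => ((x⁻¹ : GL (Fin 2) R) : Matrix (Fin 2) (Fin 2) R) i j) '' C)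

theorem isCompact_entrySet159 {R : Type*} [CommRing R] [TopologicalSpace R]
    {C : Set (GL (Fin 2) R)} (hC : IsCompact C) : IsCompact (entrySet159 C) :=
  isCompact_iUnion fun i => isCompact_iUnion fun j =>
    (hC.image (continuous_entryGL159 i j)).union (hC.image (continuous_entryInvGL159 i j))

theorem entry_mem159 {R : Type*} [CommRing R] {C : Set (GL (Fin 2) R)} {x : GL (Fin 2) R}
    (hx : x ∈ C) (i j : Fin 2) : (x : Matrix (Fin 2) (Fin 2) R) i j ∈ entrySet159 C :=
  Set.mem_iUnion.2 ⟨i, Set.mem_iUnion.2 ⟨j, Or.inl ⟨x, hx, rfl⟩⟩⟩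

theorem entryInv_mem159 {R : Type*} [CommRing R] {C : Set (GL (Fin 2) R)} {x : GL (Fin 2) R}
    (hx : x ∈ C) (i j : Fin 2) :
    ((x⁻¹ : GL (Fin 2) R) : Matrix (Fin 2) (Fin 2) R) i j ∈ entrySet159 C :=
  Set.mem_iUnion.2 ⟨i, Set.mem_iUnion.2 ⟨j, Or.inr ⟨x, hx, rfl⟩⟩⟩

/-- A box of finite adeles is compact. -/
theorem isCompact_finBox159 (DF : ∀ v : HeightOneSpectrum (𝓞 K), Set (v.adicCompletion K))
    (hc : ∀ v, IsCompact (DF v))
    (hint : ∀ᶠ v in Filter.cofinite,
      DF v ⊆ (v.adicCompletionIntegers K : Set (v.adicCompletion K))) :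
    IsCompact {x : FiniteAdeleRing (𝓞 K) K | ∀ v, x v ∈ DF v} := by
  set Sc : Set (HeightOneSpectrum (𝓞 K)) :=
    {v | DF v ⊆ (v.adicCompletionIntegers K : Set (v.adicCompletion K))} with hSc
  have hle : Filter.cofinite ≤ Filter.principal Sc := Filter.le_principal_iff.2 hint
  have hbox : IsCompact (Set.univ.pi DF) := isCompact_univ_pi hc
  have hsub : Set.univ.pi DF ⊆ Set.range
      ((↑) : Πʳ v : HeightOneSpectrum (𝓞 K),
        [v.adicCompletion K, (v.adicCompletionIntegers K : Set (v.adicCompletion K))]_[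
          Filter.principal Sc] → ∀ v : HeightOneSpectrum (𝓞 K), v.adicCompletion K) := by
    rw [RestrictedProduct.range_coe_principal]
    intro x hx v hv
    exact hv (hx v (Set.mem_univ v))
  have hQ := (RestrictedProduct.isEmbedding_coe_of_principal
    (R := fun v : HeightOneSpectrum (𝓞 K) => v.adicCompletion K)
    (A := fun v : HeightOneSpectrum (𝓞 K) =>
      (v.adicCompletionIntegers K : Set (v.adicCompletion K)))
    (S := Sc)).isInducing.isCompact_preimage_iff hsub |>.mpr hbox
  have himg := hQ.image (RestrictedProduct.continuous_inclusion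
    (R := fun v : HeightOneSpectrum (𝓞 K) => v.adicCompletion K)
    (A := fun v : HeightOneSpectrum (𝓞 K) =>
      (v.adicCompletionIntegers K : Set (v.adicCompletion K))) hle)
  have hset : {x : FiniteAdeleRing (𝓞 K) K | ∀ v, x v ∈ DF v}
      = RestrictedProduct.inclusion (fun v : HeightOneSpectrum (𝓞 K) => v.adicCompletion K)
          (fun v : HeightOneSpectrum (𝓞 K) =>
            (v.adicCompletionIntegers K : Set (v.adicCompletion K))) hle ''
          (DFunLike.coe ⁻¹' Set.univ.pi DF) := by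
    ext x
    constructor
    · intro hx
      refine ⟨⟨fun v => x v, ?_⟩, ?_, ?_⟩
      · exact Filter.eventually_principal.2 fun v hv => hv (hx v)
      · intro v _
        exact hx v
      · rfl
    · rintro ⟨y, hy, rfl⟩ v
      exact hy v (Set.mem_univ v)
  rw [hset]
  exact himg

omit [NumberField K] in
/-- A box of infinite adeles is compact. -/
theorem isCompact_infBox159 (DI : InfinitePlace K → Set ℂ) (hc : ∀ w, IsCompact (DI w)) :
    IsCompact {x : InfiniteAdeleRing K |
      ∀ w, InfinitePlace.Completion.extensionEmbedding w (x w) ∈ DI w} := by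
  have h : IsCompact (Set.univ.pi fun w : InfinitePlace K =>
      (InfinitePlace.Completion.extensionEmbedding w) ⁻¹' DI w) :=
    isCompact_univ_pi fun w =>
      (InfinitePlace.Completion.isometry_extensionEmbedding w).isClosedEmbedding.isCompact_preimage
        (hc w)
  have hset : {x : InfiniteAdeleRing K |
      ∀ w, InfinitePlace.Completion.extensionEmbedding w (x w) ∈ DI w}
      = Set.univ.pi fun w : InfinitePlace K =>
        (InfinitePlace.Completion.extensionEmbedding w) ⁻¹' DI w := by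
    ext x
    exact ⟨fun hx w _ => hx w, fun hx w => hx w (Set.mem_univ w)⟩
  rw [hset]
  exact h

/-- The box of adeles. -/
def adBox159 (DI : InfinitePlace K → Set ℂ)
    (DF : ∀ v : HeightOneSpectrum (𝓞 K), Set (v.adicCompletion K)) : Set (Adl K) :=
  {a | (∀ w, T5.infHom w a ∈ DI w) ∧ ∀ v, a.2 v ∈ DF v}

theorem isCompact_adBox159 (DI : InfinitePlace K → Set ℂ) (hcI : ∀ w, IsCompact (DI w))
    (DF : ∀ v : HeightOneSpectrum (𝓞 K), Set (v.adicCompletion K))
    (hc : ∀ v, IsCompact (DF v))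
    (hint : ∀ᶠ v in Filter.cofinite,
      DF v ⊆ (v.adicCompletionIntegers K : Set (v.adicCompletion K))) :
    IsCompact (adBox159 DI DF) := by
  have h := (isCompact_infBox159 DI hcI).prod (isCompact_finBox159 DF hc hint)
  have hset : adBox159 DI DF
      = ({x : InfiniteAdeleRing K |
            ∀ w, InfinitePlace.Completion.extensionEmbedding w (x w) ∈ DI w} ×ˢ
          {x : FiniteAdeleRing (𝓞 K) K | ∀ v, x v ∈ DF v} :
          Set (InfiniteAdeleRing K × FiniteAdeleRing (𝓞 K) K)) := by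
    ext x
    rfl
  rw [hset]
  exact h

/-- The matrices with entries in the box. -/
def matBox159 (DI : InfinitePlace K → Set ℂ)
    (DF : ∀ v : HeightOneSpectrum (𝓞 K), Set (v.adicCompletion K)) :
    Set (Matrix (Fin 2) (Fin 2) (Adl K)) :=
  {M | ∀ i j, M i j ∈ adBox159 DI DF}

theorem isCompact_matBox159 (DI : InfinitePlace K → Set ℂ) (hcI : ∀ w, IsCompact (DI w))
    (DF : ∀ v : HeightOneSpectrum (𝓞 K), Set (v.adicCompletion K))
    (hc : ∀ v, IsCompact (DF v))
    (hint : ∀ᶠ v in Filter.cofinite,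
      DF v ⊆ (v.adicCompletionIntegers K : Set (v.adicCompletion K))) :
    IsCompact (matBox159 DI DF) := by
  have h : IsCompact (Set.univ.pi fun _ : Fin 2 => Set.univ.pi fun _ : Fin 2 =>
      adBox159 DI DF) :=
    isCompact_univ_pi fun _ => isCompact_univ_pi fun _ => isCompact_adBox159 DI hcI DF hc hint
  have hset : (Set.univ.pi fun _ : Fin 2 => Set.univ.pi fun _ : Fin 2 => adBox159 DI DF)
      = matBox159 DI DF := by
    ext M
    simp only [Set.mem_pi, Set.mem_univ, true_implies]
    exact Iff.rfl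
  rw [← hset]
  exact h

/-- The elements of `GL₂(𝔸_K)` with the entries of `g` and `g⁻¹` in a compact box form a
compact set. -/
theorem isCompact_GLBox159 (DI : InfinitePlace K → Set ℂ) (hcI : ∀ w, IsCompact (DI w))
    (DF : ∀ v : HeightOneSpectrum (𝓞 K), Set (v.adicCompletion K))
    (hc : ∀ v, IsCompact (DF v))
    (hint : ∀ᶠ v in Filter.cofinite,
      DF v ⊆ (v.adicCompletionIntegers K : Set (v.adicCompletion K))) :
    IsCompact {g : G K | (g : Matrix (Fin 2) (Fin 2) (Adl K)) ∈ matBox159 DI DF ∧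
      ((g⁻¹ : G K) : Matrix (Fin 2) (Fin 2) (Adl K)) ∈ matBox159 DI DF} := by
  have : T2Space (Adl K) := H11.LC.t2Space_adeleRing_h11 K
  have : T2Space (Matrix (Fin 2) (Fin 2) (Adl K)) := H11.LC.t2Space_matrix_h11 (Fin 2) (Adl K)
  have hemb : Topology.IsClosedEmbedding (Units.embedProduct (Matrix (Fin 2) (Fin 2) (Adl K))) :=
    Units.isClosedEmbedding_embedProduct
  have hM := isCompact_matBox159 DI hcI DF hc hint
  have hC : IsCompact ((matBox159 DI DF) ×ˢ (MulOpposite.unop ⁻¹' (matBox159 DI DF)) :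
      Set (Matrix (Fin 2) (Fin 2) (Adl K) × (Matrix (Fin 2) (Fin 2) (Adl K))ᵐᵒᵖ)) := by
    refine hM.prod ?_
    have : MulOpposite.unop ⁻¹' (matBox159 DI DF)
        = MulOpposite.opHomeomorph '' (matBox159 DI DF) := by
      ext x
      constructor
      · intro hx
        exact ⟨MulOpposite.unop x, hx, rfl⟩
      · rintro ⟨y, hy, rfl⟩
        exact hy
    rw [this]
    exact hM.image MulOpposite.opHomeomorph.continuous
  exact hemb.isCompact_preimage hC

open Classical in
/-- `(p_i)_{i ∈ S}` is proper on `E_S` (boxes). -/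
theorem proper_restr159 (S : Finset (Pl159 K))
    (hS : ∀ w : InfinitePlace K, (Sum.inl w : Pl159 K) ∈ S)
    (C : ∀ i : Pl159 K, Set (LocGL159 K i)) (hC : ∀ i ∈ S, IsCompact (C i)) :
    ∃ C' : Set (G K), IsCompact C' ∧
      {g | g ∈ restrSub159 (locProj159 K) (locK159 K) S ∧
        ∀ i ∈ S, locProj159 K i g ∈ C i} ⊆ C' := by
  set DI : InfinitePlace K → Set ℂ := fun w =>
    entrySet159 (R := ℂ) (C (Sum.inl w)) with hDI
  set DF : ∀ v : HeightOneSpectrum (𝓞 K), Set (v.adicCompletion K) := fun v =>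
    if (Sum.inr v : Pl159 K) ∈ S then entrySet159 (R := v.adicCompletion K) (C (Sum.inr v))
    else (v.adicCompletionIntegers K : Set (v.adicCompletion K)) with hDF
  have hDF1 : ∀ v, (Sum.inr v : Pl159 K) ∈ S →
      DF v = entrySet159 (R := v.adicCompletion K) (C (Sum.inr v)) := fun v hv => if_pos hv
  have hDF0 : ∀ v, (Sum.inr v : Pl159 K) ∉ S →
      DF v = (v.adicCompletionIntegers K : Set (v.adicCompletion K)) := fun v hv => if_neg hv
  have hcI : ∀ w, IsCompact (DI w) := fun w =>
    isCompact_entrySet159 (R := ℂ) (hC (Sum.inl w) (hS w))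
  have hc : ∀ v, IsCompact (DF v) := by
    intro v
    by_cases hv : (Sum.inr v : Pl159 K) ∈ S
    · rw [hDF1 v hv]
      exact isCompact_entrySet159 (R := v.adicCompletion K) (hC (Sum.inr v) hv)
    · rw [hDF0 v hv]
      exact H11.LC.isCompact_integers_h11 K v
  have hint : ∀ᶠ v in Filter.cofinite,
      DF v ⊆ (v.adicCompletionIntegers K : Set (v.adicCompletion K)) :=
    (eventually_notMem159 S).mono fun v hv => by rw [hDF0 v hv]
  refine ⟨_, isCompact_GLBox159 DI hcI DF hc hint, ?_⟩
  rintro g ⟨hgE, hgC⟩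
  have hE := (mem_restrSub_iff159 S g).1 hgE
  have key : ∀ h : G K, (∀ v, (Sum.inr v : Pl159 K) ∉ S →
        ∀ i j, ((h : Matrix (Fin 2) (Fin 2) (Adl K)) i j).2 v ∈ v.adicCompletionIntegers K) →
      (∀ w i j, T5.infHom w ((h : Matrix (Fin 2) (Fin 2) (Adl K)) i j) ∈ DI w) →
      (∀ v, (Sum.inr v : Pl159 K) ∈ S → ∀ i j,
        ((h : Matrix (Fin 2) (Fin 2) (Adl K)) i j).2 v
          ∈ entrySet159 (R := v.adicCompletion K) (C (Sum.inr v))) →
      (h : Matrix (Fin 2) (Fin 2) (Adl K)) ∈ matBox159 DI DF := by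
    intro h h0 hI h1 i j
    refine ⟨fun w => hI w i j, fun v => ?_⟩
    by_cases hv : (Sum.inr v : Pl159 K) ∈ S
    · rw [hDF1 v hv]; exact h1 v hv i j
    · rw [hDF0 v hv]; exact h0 v hv i j
  refine ⟨key g (fun v hv => (hE v hv).1) ?_ ?_, key g⁻¹ (fun v hv => (hE v hv).2) ?_ ?_⟩
  · intro w i j
    exact entry_mem159 (R := ℂ) (hgC (Sum.inl w) (hS w)) i j
  · intro v hv i j
    exact entry_mem159 (R := v.adicCompletion K) (hgC (Sum.inr v) hv) i j
  · intro w i j
    have h1 := entryInv_mem159 (R := ℂ) (hgC (Sum.inl w) (hS w)) i j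
    have h2 : ((Matrix.GeneralLinearGroup.map (T5.infHom w) g)⁻¹ : GL (Fin 2) ℂ)
        = Matrix.GeneralLinearGroup.map (T5.infHom w) g⁻¹ := (map_inv _ g).symm
    have h3 : (((Matrix.GeneralLinearGroup.map (T5.infHom w) g)⁻¹ : GL (Fin 2) ℂ) :
        Matrix (Fin 2) (Fin 2) ℂ) i j ∈ entrySet159 (R := ℂ) (C (Sum.inl w)) := h1
    rw [h2] at h3
    exact h3
  · intro v hv i j
    have h1 := entryInv_mem159 (R := v.adicCompletion K) (hgC (Sum.inr v) hv) i j
    have h2 : ((Matrix.GeneralLinearGroup.map (T5.finHom v) g)⁻¹ :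
        GL (Fin 2) (v.adicCompletion K))
        = Matrix.GeneralLinearGroup.map (T5.finHom v) g⁻¹ := (map_inv _ g).symm
    have h3 : (((Matrix.GeneralLinearGroup.map (T5.finHom v) g)⁻¹ :
        GL (Fin 2) (v.adicCompletion K)) :
        Matrix (Fin 2) (Fin 2) (v.adicCompletion K)) i j
          ∈ entrySet159 (R := v.adicCompletion K) (C (Sum.inr v)) := h1
    rw [h2] at h3
    exact h3

/-! ## The theorem -/

/-- **`GL₂(𝔸_K)` IS THE RESTRICTED PRODUCT** of the `GL₂(ℂ)`, `GL₂(K_v)` with respect to the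
`GL₂(𝒪_v)` (`K` totally complex), in the sense of `IsRestrProd159`. -/
theorem isRestrProd_GL159 (hK : ∀ w : InfinitePlace K, w.IsComplex)
    (T₀ : Finset (HeightOneSpectrum (𝓞 K))) :
    IsRestrProd159 (locProj159 K) (locK159 K) (baseSet159 K T₀) where
  cont := continuous_locProj159
  isOpenK := fun i _ => by
    cases i with
    | inl w => exact isOpen_univ
    | inr v => exact isOpen_intGL159 v
  isOpen := fun S _ => isOpen_restrSub159 S
  surj := fun S hS x => surj_restr159 hK S (fun w => hS (inl_mem_baseSet159 T₀ w)) x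
  proper := fun S hS C hC => proper_restr159 S (fun w => hS (inl_mem_baseSet159 T₀ w)) C hC

/-! ## The splitting of the Haar measure of `GL₂(𝔸_K)` -/

attribute [local instance] Fermat.Agent.LT.T5.instMeasurableSpaceG

theorem borelSpace_G159 : BorelSpace (G K) := ⟨rfl⟩

/-- The family of the local measures. -/
def locMeas159 (μI : InfinitePlace K → @Measure (GL (Fin 2) ℂ) (borel _))
    (μF : ∀ v : HeightOneSpectrum (𝓞 K), @Measure (GL (Fin 2) (v.adicCompletion K)) (borel _)) :
    ∀ i : Pl159 K, Measure (LocGL159 K i)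
  | Sum.inl w => μI w
  | Sum.inr v => μF v

/-- The family of the local functions. -/
def locFn159 (FI : InfinitePlace K → GL (Fin 2) ℂ → ℂ)
    (FF : ∀ v : HeightOneSpectrum (𝓞 K), GL (Fin 2) (v.adicCompletion K) → ℂ) :
    ∀ i : Pl159 K, LocGL159 K i → ℂ
  | Sum.inl w => FI w
  | Sum.inr v => FF v

theorem baseSet_mono159 {T₀ T : Finset (HeightOneSpectrum (𝓞 K))} (h : T₀ ⊆ T) :
    baseSet159 K T₀ ⊆ baseSet159 K T := by
  intro i hi
  cases i with
  | inl w => exact inl_mem_baseSet159 T w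
  | inr v => exact (inr_mem_baseSet159 T v).2 (h ((inr_mem_baseSet159 T₀ v).1 hi))

theorem prod_baseSet159 {M : Type*} [CommMonoid M] (T : Finset (HeightOneSpectrum (𝓞 K)))
    (φ : Pl159 K → M) :
    ∏ i ∈ baseSet159 K T, φ i = (∏ v ∈ T, φ (Sum.inr v)) * ∏ w : InfinitePlace K, φ (Sum.inl w) := by
  classical
  unfold baseSet159
  rw [Finset.prod_union, Finset.prod_image (fun _ _ _ _ h => Sum.inl_injective h),
    Finset.prod_image (fun _ _ _ _ h => Sum.inr_injective h), mul_comm]
  rw [Finset.disjoint_left]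
  intro i h1 h2
  obtain ⟨w, -, rfl⟩ := Finset.mem_image.1 h1
  obtain ⟨v, -, hv⟩ := Finset.mem_image.1 h2
  exact Sum.inr_ne_inl hv

/-- `E_T` in the vocabulary of A0 (`OutT305` of helper305). -/
theorem mem_restrSub_base159 (T : Finset (HeightOneSpectrum (𝓞 K))) (g : G K) :
    g ∈ restrSub159 (locProj159 K) (locK159 K) (baseSet159 K T) ↔
      ∀ v : HeightOneSpectrum (𝓞 K), v ∉ T → IsIntegralAt v g ∧ IsIntegralAt v g⁻¹ := by
  rw [mem_restrSub_iff159]
  constructor
  · intro h v hv
    exact h v fun h' => hv ((inr_mem_baseSet159 T v).1 h')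
  · intro h v hv
    exact h v fun h' => hv ((inr_mem_baseSet159 T v).2 h')

/-- **THE SPLITTING OF THE HAAR MEASURE OF `GL₂(𝔸_K)`** (`K` totally complex).  `μ` a Haar
measure of `GL₂(𝔸_K)`, `μI w` Haar measures of `GL₂(ℂ)`, `μF v` Haar measures of `GL₂(K_v)`
with `μF v (GL₂(𝒪_v)) = 1` for `v ∉ T₀`: there is ONE constant `c > 0` such that for every
finite `T ⊇ T₀` and all measurable local functions

    ∫_{E_T} ∏_{v ∈ T} FF_v(g_v) ∏_w FI_w(g_w) dμ(g) = c ∏_{v ∈ T} ∫ FF_v dμF_v ∏_w ∫ FI_w dμI_w,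

`E_T = {g : g_v ∈ GL₂(𝒪_v) for all v ∉ T}`. -/
theorem haarSplit_GL159 (hK : ∀ w : InfinitePlace K, w.IsComplex)
    (μ : Measure (G K)) (hμ : μ.IsHaarMeasure) (T₀ : Finset (HeightOneSpectrum (𝓞 K)))
    (μI : InfinitePlace K → @Measure (GL (Fin 2) ℂ) (borel _))
    (μF : ∀ v : HeightOneSpectrum (𝓞 K), @Measure (GL (Fin 2) (v.adicCompletion K)) (borel _))
    (hI : ∀ w, @Measure.IsHaarMeasure _ _ _ (borel _) (μI w))
    (hF : ∀ v, @Measure.IsHaarMeasure _ _ _ (borel _) (μF v))
    (h1 : ∀ v : HeightOneSpectrum (𝓞 K), v ∉ T₀ →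
      μF v (intGL159 K v : Set (GL (Fin 2) (v.adicCompletion K))) = 1) :
    ∃ c : ℝ, 0 < c ∧ ∀ T : Finset (HeightOneSpectrum (𝓞 K)), T₀ ⊆ T →
      ∀ (FI : InfinitePlace K → GL (Fin 2) ℂ → ℂ)
        (FF : ∀ v : HeightOneSpectrum (𝓞 K), GL (Fin 2) (v.adicCompletion K) → ℂ),
        (∀ w, @Measurable _ _ (borel _) _ (FI w)) →
        (∀ v ∈ T, @Measurable _ _ (borel _) _ (FF v)) →
        ∫ g in {g : G K | ∀ v : HeightOneSpectrum (𝓞 K), v ∉ T →
            IsIntegralAt v g ∧ IsIntegralAt v g⁻¹},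
          (∏ v ∈ T, FF v (Matrix.GeneralLinearGroup.map (T5.finHom v) g)) *
            ∏ w : InfinitePlace K, FI w (Matrix.GeneralLinearGroup.map (T5.infHom w) g) ∂μ
          = (c : ℂ) * ((∏ v ∈ T, @integral _ _ _ _ (borel _) (μF v) (FF v)) *
              ∏ w : InfinitePlace K, @integral _ _ _ _ (borel _) (μI w) (FI w)) := by
  have := hμ
  have : BorelSpace (G K) := borelSpace_G159
  have hH : ∀ i : Pl159 K, (locMeas159 μI μF i).IsHaarMeasure := by
    intro i
    cases i with
    | inl w => exact hI w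
    | inr v => exact hF v
  have hR := isRestrProd_GL159 hK T₀
  have hKm : ∀ i : Pl159 K, i ∉ baseSet159 K T₀ →
      locMeas159 μI μF i (locK159 K i : Set (LocGL159 K i)) = 1 := by
    intro i hi
    cases i with
    | inl w => exact absurd (inl_mem_baseSet159 T₀ w) hi
    | inr v => exact h1 v fun h' => hi ((inr_mem_baseSet159 T₀ v).2 h')
  refine ⟨(restrConst159 μ (locProj159 K) (locK159 K) (locMeas159 μI μF) (baseSet159 K T₀) : ℝ),
    restrConst_pos159 _ _ _ _ _, ?_⟩
  intro T hT FI FF hFI hFF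
  have hf : ∀ i ∈ baseSet159 K T, Measurable (locFn159 FI FF i) := by
    intro i hi
    cases i with
    | inl w => exact hFI w
    | inr v => exact hFF v ((inr_mem_baseSet159 T v).1 hi)
  have e := integral_restr_prod159 μ hR (locMeas159 μI μF) hKm (baseSet159 K T)
    (baseSet_mono159 hT) (locFn159 FI FF) hf
  rw [prod_baseSet159 T fun i => ∫ x, locFn159 FI FF i x ∂(locMeas159 μI μF i)] at e
  have hset : {g : G K | ∀ v : HeightOneSpectrum (𝓞 K), v ∉ T →
      IsIntegralAt v g ∧ IsIntegralAt v g⁻¹}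
      = (restrSub159 (locProj159 K) (locK159 K) (baseSet159 K T) : Set (G K)) := by
    ext g
    exact (mem_restrSub_base159 T g).symm
  rw [hset]
  refine Eq.trans ?_ e
  refine integral_congr_ae (Filter.Eventually.of_forall fun g => ?_)
  exact (prod_baseSet159 T fun i => locFn159 FI FF i (locProj159 K i g)).symm

end Fermat.Agent.LT.T7.H159

end
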