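import Mathlib
import Fermat.Agent.LT.T7.H305.MatchCut
import Fermat.Agent.LT.T7.H159.RestrGL

/-!
# Row LT, tower T7, node CutIntC305, LEAF C2.7.4 `HaarSplitC305` (helper159): PROVED, VERBATIM

OFF-MAIN.  No hole, nothing assumed.  ADDITIVE (suffix `159`).

    haarSplitC159 (K) : H305.HaarSplitC305 K

On `HaarSplit.lean` (`isHaarMeasure_map_restrict159`) and `RestrGL.lean` (`surj_restr159`,
`proper_restr159`, `isOpen_restrSub159`) of helper159; statement of `T7/H305/MatchCut.lean`
(helper305).  The constant: `c = μ(A) / μc(C)^{#w}`, `A = {y : y_v ∈ U(m_v) for all v, y_w ∈ C}`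
for a compact neighbourhood `C` of `1` in `GL₂(ℂ)`.
-/

set_option autoImplicit false
set_option linter.style.haveILetI false

open IsDedekindDomain NumberField MeasureTheory
open scoped RestrictedProduct

noncomputable section

namespace Fermat.Agent.LT.T7.H159

open Fermat.Agent.LT.H556.A0 Fermat.Agent.LT Fermat.Agent.LT.T7

variable {K : Type} [Field K] [NumberField K]

/-! ## Local facts -/

theorem isOpen_ball159 (v : HeightOneSpectrum (𝓞 K)) (a : v.adicCompletion K) (n : ℕ) :
    IsOpen {x : v.adicCompletion K | Valued.v (x - a) ≤ WithZero.exp (-(n : ℤ))} := by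
  obtain ⟨π, hπ⟩ := v.valuation_exists_uniformizer K
  set ϖ : v.adicCompletion K := (π : v.adicCompletion K) with hϖdef
  have hϖ : Valued.v ϖ = WithZero.exp (-1 : ℤ) := by
    rw [hϖdef, HeightOneSpectrum.valuedAdicCompletion_eq_valuation', hπ]
  have hϖn : Valued.v (ϖ ^ n) = WithZero.exp (-(n : ℤ)) := by
    rw [map_pow, hϖ, ← WithZero.exp_nsmul]
    simp
  have hpos : (0 : T6.Γ₀) < Valued.v (ϖ ^ n) := by
    rw [hϖn]; exact WithZero.exp_pos
  have hO : IsOpen (v.adicCompletionIntegers K : Set (v.adicCompletion K)) :=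
    Valued.isOpen_valuationSubring _
  have hcont : Continuous fun x : v.adicCompletion K => (ϖ ^ n)⁻¹ * (x - a) :=
    continuous_const.mul (continuous_id.sub continuous_const)
  have hset : {x : v.adicCompletion K | Valued.v (x - a) ≤ WithZero.exp (-(n : ℤ))}
      = (fun x : v.adicCompletion K => (ϖ ^ n)⁻¹ * (x - a)) ⁻¹'
        (v.adicCompletionIntegers K : Set (v.adicCompletion K)) := by
    ext x
    simp only [Set.mem_ofPred_eq, Set.mem_preimage, SetLike.mem_coe,
      HeightOneSpectrum.mem_adicCompletionIntegers, map_mul, map_inv₀]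
    rw [inv_mul_le_iff₀ hpos, mul_one, hϖn]
  rw [hset]
  exact hO.preimage hcont

theorem isOpen_InU159 (v : HeightOneSpectrum (𝓞 K)) (n : ℕ) :
    IsOpen {g : GL (Fin 2) (v.adicCompletion K) | T6.InU n g} := by
  have e : {g : GL (Fin 2) (v.adicCompletion K) | T6.InU n g}
      = ⋂ (i : Fin 2), ⋂ (j : Fin 2),
        ((fun g : GL (Fin 2) (v.adicCompletion K) =>
            (g : Matrix (Fin 2) (Fin 2) (v.adicCompletion K)) i j) ⁻¹'
            {x | Valued.v (x - (1 : Matrix (Fin 2) (Fin 2) (v.adicCompletion K)) i j)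
              ≤ WithZero.exp (-(n : ℤ))}) ∩
          ((fun g : GL (Fin 2) (v.adicCompletion K) =>
            ((g⁻¹ : GL (Fin 2) (v.adicCompletion K)) :
              Matrix (Fin 2) (Fin 2) (v.adicCompletion K)) i j) ⁻¹'
            {x | Valued.v (x - (1 : Matrix (Fin 2) (Fin 2) (v.adicCompletion K)) i j)
              ≤ WithZero.exp (-(n : ℤ))}) := by
    ext g
    simp only [Set.mem_iInter, Set.mem_inter_iff, Set.mem_preimage]
    rfl
  rw [e]
  refine isOpen_iInter_of_finite fun i => isOpen_iInter_of_finite fun j => IsOpen.inter ?_ ?_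
  · exact (isOpen_ball159 v _ n).preimage (continuous_entryGL159 i j)
  · exact (isOpen_ball159 v _ n).preimage (continuous_entryInvGL159 i j)

theorem inU_zero_iff159 (v : HeightOneSpectrum (𝓞 K)) (g : GL (Fin 2) (v.adicCompletion K)) :
    T6.InU 0 g ↔ g ∈ intGL159 K v := by
  have key : ∀ (x : v.adicCompletion K) (i j : Fin 2),
      Valued.v (x - (1 : Matrix (Fin 2) (Fin 2) (v.adicCompletion K)) i j)
          ≤ WithZero.exp (-((0 : ℕ) : ℤ)) ↔ x ∈ v.adicCompletionIntegers K := by
    intro x i j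
    have h1 := one_entry_mem159 v i j
    have e0 : WithZero.exp (-((0 : ℕ) : ℤ)) = (1 : T6.Γ₀) := by simp
    rw [e0, ← HeightOneSpectrum.mem_adicCompletionIntegers]
    constructor
    · intro h
      have := add_mem h h1
      simpa using this
    · intro h
      exact sub_mem h h1
  constructor
  · intro h
    exact ⟨fun i j => (key _ i j).1 (h i j).1, fun i j => (key _ i j).1 (h i j).2⟩
  · rintro ⟨h1, h2⟩ i j
    exact ⟨(key _ i j).2 (h1 i j), (key _ i j).2 (h2 i j)⟩

/-! ## The map to the product -/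

attribute [local instance] Fermat.Agent.LT.T5.instMeasurableSpaceG

section Main

variable (K)

/-- The target group `∏_{v ∈ S} GL₂(K_v) × ∏_w GL₂(ℂ)`. -/
abbrev Tgt159 (S : Finset (HeightOneSpectrum (𝓞 K))) : Type :=
  (∀ v : S, GL (Fin 2) ((v : HeightOneSpectrum (𝓞 K)).adicCompletion K)) ×
    (InfinitePlace K → GL (Fin 2) ℂ)

/-- `compS305 S` as a homomorphism. -/
def compHom159 (S : Finset (HeightOneSpectrum (𝓞 K))) : G K →* Tgt159 K S :=
  MonoidHom.prod (MonoidHom.pi fun v : S => H305.finGL305 v.1)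
    (MonoidHom.pi fun w => H305.infGL305 w)

theorem compHom_eq159 (S : Finset (HeightOneSpectrum (𝓞 K))) :
    ⇑(compHom159 K S) = H305.compS305 S := rfl

theorem continuous_compHom159 (S : Finset (HeightOneSpectrum (𝓞 K))) :
    Continuous (compHom159 K S) := by
  refine Continuous.prodMk (continuous_pi fun v => ?_) (continuous_pi fun w => ?_)
  · exact continuous_locProj159 (Sum.inr v.1)
  · exact continuous_locProj159 (Sum.inl w)

variable {K}

theorem surj_comp159 (hK : ∀ w : InfinitePlace K, w.IsComplex)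
    (S : Finset (HeightOneSpectrum (𝓞 K))) (h : Tgt159 K S) :
    ∃ e ∈ restrSub159 (locProj159 K) (locK159 K) (baseSet159 K S), compHom159 K S e = h := by
  set x : ∀ i : baseSet159 K S, LocGL159 K i := fun i =>
    match i with
    | ⟨Sum.inl w, _⟩ => (h.2 w : GL (Fin 2) ℂ)
    | ⟨Sum.inr v, hv⟩ => (h.1 ⟨v, (inr_mem_baseSet159 S v).1 hv⟩ :
        GL (Fin 2) (v.adicCompletion K)) with hx
  obtain ⟨g, hg, hgx⟩ := surj_restr159 hK (baseSet159 K S) (fun w => inl_mem_baseSet159 S w) x
  refine ⟨g, hg, Prod.ext (funext fun v => ?_) (funext fun w => ?_)⟩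
  · exact congrFun hgx ⟨Sum.inr v.1, (inr_mem_baseSet159 S v.1).2 v.2⟩
  · exact congrFun hgx ⟨Sum.inl w, inl_mem_baseSet159 S w⟩

open Classical in
theorem proper_comp159 (S : Finset (HeightOneSpectrum (𝓞 K))) (C : Set (Tgt159 K S))
    (hC : IsCompact C) :
    ∃ C' : Set (G K), IsCompact C' ∧
      (compHom159 K S) ⁻¹' C ∩
        (restrSub159 (locProj159 K) (locK159 K) (baseSet159 K S) : Set (G K)) ⊆ C' := by
  set Cf : ∀ i : Pl159 K, Set (LocGL159 K i) := fun i =>
    match i with
    | Sum.inl w => ((fun h : Tgt159 K S => h.2 w) '' C : Set (GL (Fin 2) ℂ))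
    | Sum.inr v => (if hv : v ∈ S then (fun h : Tgt159 K S => h.1 ⟨v, hv⟩) '' C else ∅ :
        Set (GL (Fin 2) (v.adicCompletion K))) with hCf
  have hcomp : ∀ i ∈ baseSet159 K S, IsCompact (Cf i) := by
    intro i hi
    cases i with
    | inl w => exact hC.image ((continuous_apply w).comp continuous_snd)
    | inr v =>
      have hv := (inr_mem_baseSet159 S v).1 hi
      have e : Cf (Sum.inr v) = (fun h : Tgt159 K S => h.1 ⟨v, hv⟩) '' C := dif_pos hv
      rw [e]
      exact hC.image ((continuous_apply (⟨v, hv⟩ : S)).comp continuous_fst)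
  obtain ⟨C', hC', hsub⟩ := proper_restr159 (baseSet159 K S)
    (fun w => inl_mem_baseSet159 S w) Cf hcomp
  refine ⟨C', hC', ?_⟩
  rintro g ⟨hgC, hgE⟩
  refine hsub ⟨hgE, fun i hi => ?_⟩
  cases i with
  | inl w => exact ⟨compHom159 K S g, hgC, rfl⟩
  | inr v =>
    have hv := (inr_mem_baseSet159 S v).1 hi
    have e : Cf (Sum.inr v) = (fun h : Tgt159 K S => h.1 ⟨v, hv⟩) '' C := dif_pos hv
    rw [e]
    exact ⟨compHom159 K S g, hgC, rfl⟩

end Main

/-! ## The leaf -/

section Leaf

theorem exists_nice_nhds_gen159 {X : Type*} [Group X] [TopologicalSpace X]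
    [IsTopologicalGroup X] [LocallyCompactSpace X] [MeasurableSpace X] [BorelSpace X]
    (μ : Measure X) [μ.IsHaarMeasure] :
    ∃ C : Set X, IsCompact C ∧ MeasurableSet C ∧ μ C ≠ 0 ∧ μ C ≠ ⊤ := by
  obtain ⟨C, hC, hC1⟩ := exists_compact_mem_nhds (1 : X)
  refine ⟨closure C, hC.closure, isClosed_closure.measurableSet, ?_, hC.closure.measure_lt_top.ne⟩
  exact (MeasureTheory.Measure.measure_pos_of_mem_nhds μ
    (Filter.mem_of_superset hC1 subset_closure)).ne'

variable (K)

/-- **LEAF C2.7.4 = HAAR-SPLIT, PROVED.** -/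
theorem haarSplitC159 : H305.HaarSplitC305 K := by
  intro hK μ hμ μc hμc T₀ m hm
  classical
  letI mv : ∀ v : HeightOneSpectrum (𝓞 K), MeasurableSpace (GL (Fin 2) (v.adicCompletion K)) :=
    fun _ => borel _
  letI mc : MeasurableSpace (GL (Fin 2) ℂ) := borel _
  haveI : ∀ v : HeightOneSpectrum (𝓞 K), BorelSpace (GL (Fin 2) (v.adicCompletion K)) :=
    fun _ => ⟨rfl⟩
  haveI : BorelSpace (GL (Fin 2) ℂ) := ⟨rfl⟩
  haveI : SecondCountableTopology (GL (Fin 2) ℂ) := secondCountable_GLC159
  haveI : LocallyCompactSpace (GL (Fin 2) ℂ) := locallyCompactSpace_GLC159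
  haveI : ∀ v : HeightOneSpectrum (𝓞 K),
      SecondCountableTopology (GL (Fin 2) (v.adicCompletion K)) :=
    fun v => secondCountable_GLv159 K v
  haveI : ∀ v : HeightOneSpectrum (𝓞 K),
      LocallyCompactSpace (GL (Fin 2) (v.adicCompletion K)) :=
    fun v => H11.LC.locallyCompactSpace_GL2_adicCompletion_h11 K v
  haveI : BorelSpace (G K) := ⟨rfl⟩
  haveI := hμ
  haveI : μc.IsHaarMeasure := hμc
  obtain ⟨C, hCc, hCm, hC0, hCt⟩ := exists_nice_nhds_gen159 μc
  set A : Set (G K) := {y | (∀ v : HeightOneSpectrum (𝓞 K), T6.InU (m v) (H305.finGL305 v y)) ∧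
    ∀ w : InfinitePlace K, H305.infGL305 w y ∈ C} with hA
  set M : ENNReal := ∏ _w : InfinitePlace K, μc C with hM
  have hM0 : M ≠ 0 := Finset.prod_ne_zero_iff.mpr fun _ _ => hC0
  have hMt : M ≠ ⊤ := ENNReal.prod_ne_top fun _ _ => hCt
  set c0 : ℝ := (μ A / M).toReal with hc0
  refine ⟨if 0 < c0 then c0 else 1, by split_ifs with h <;> [exact h; exact one_pos], ?_⟩
  intro S hS μv hμv
  haveI : ∀ v : HeightOneSpectrum (𝓞 K), (μv v).IsHaarMeasure := fun v => (hμv v).1
  set E := restrSub159 (locProj159 K) (locK159 K) (baseSet159 K S) with hEdef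
  have hE : {y : G K | H305.OutT305 S y} = (E : Set (G K)) := by
    ext y
    exact (mem_restrSub_base159 S y).symm
  have hH : (Measure.map (compHom159 K S) (μ.restrict (E : Set (G K)))).IsHaarMeasure :=
    isHaarMeasure_map_restrict159 μ E (isOpen_restrSub159 _) (compHom159 K S)
      (continuous_compHom159 K S) (surj_comp159 hK S)
      (fun C hC _ => proper_comp159 S C hC)
  set P : Measure (Tgt159 K S) :=
    (Measure.pi fun v : S => μv v.1).prod (Measure.pi fun _ : InfinitePlace K => μc) with hP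
  haveI i1 : ∀ v : S, MeasurableMul (GL (Fin 2) (v.1.adicCompletion K)) := fun v => inferInstance
  haveI i2 : MeasurableMul (GL (Fin 2) ℂ) := inferInstance
  haveI i3 : ∀ v : S, SigmaFinite (μv v.1) := fun v => inferInstance
  haveI i4 : SigmaFinite μc := inferInstance
  haveI i5 : (Measure.pi fun v : S => μv v.1).IsHaarMeasure := inferInstance
  haveI i6 : (Measure.pi fun _ : InfinitePlace K => μc).IsHaarMeasure := inferInstance
  haveI i7 : MeasurableMul (∀ v : S, GL (Fin 2) (v.1.adicCompletion K)) := inferInstance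
  haveI i8 : MeasurableMul (InfinitePlace K → GL (Fin 2) ℂ) := inferInstance
  haveI : P.IsHaarMeasure := by rw [hP]; infer_instance
  set s : NNReal :=
    MeasureTheory.Measure.haarScalarFactor (Measure.map (compHom159 K S) (μ.restrict (E : Set (G K)))) P with hs
  have e1 : Measure.map (compHom159 K S) (μ.restrict (E : Set (G K))) = s • P :=
    MeasureTheory.Measure.isMulLeftInvariant_eq_smul _ _
  have hspos : 0 < s := MeasureTheory.Measure.haarScalarFactor_pos_of_isHaarMeasure _ _
  set W : Set (Tgt159 K S) :=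
    (Set.pi Set.univ fun v : S => {g : GL (Fin 2) (v.1.adicCompletion K) | T6.InU (m v.1) g}) ×ˢ
      (Set.pi Set.univ fun _ : InfinitePlace K => C) with hW
  have hWm : MeasurableSet W :=
    (MeasurableSet.univ_pi fun v => (isOpen_InU159 v.1 (m v.1)).measurableSet).prod
      (MeasurableSet.univ_pi fun _ => hCm)
  have hPW : P W = M := by
    rw [hP, hW, Measure.prod_prod, Measure.pi_pi, Measure.pi_pi]
    have : ∏ v : S, μv v.1 {g : GL (Fin 2) (v.1.adicCompletion K) | T6.InU (m v.1) g} = 1 :=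
      Finset.prod_eq_one fun v _ => (hμv v.1).2
    rw [this, one_mul]
  have hνW : Measure.map (compHom159 K S) (μ.restrict (E : Set (G K))) W = μ A := by
    rw [map_restrict_apply159 μ E (compHom159 K S) (continuous_compHom159 K S) hWm]
    congr 1
    ext y
    constructor
    · rintro ⟨⟨h1, h2⟩, h3⟩
      refine ⟨fun v => ?_, fun w => h2 w (Set.mem_univ w)⟩
      by_cases hv : v ∈ S
      · exact h1 ⟨v, hv⟩ (Set.mem_univ _)
      · have hm0 : m v = 0 := hm v fun h0 => hv (hS h0)
        rw [hm0]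
        refine (inU_zero_iff159 v _).2 ?_
        exact h3 (Sum.inr v) fun h' => hv ((inr_mem_baseSet159 S v).1 h')
    · rintro ⟨h1, h2⟩
      refine ⟨⟨fun v _ => h1 v.1, fun w _ => h2 w⟩, ?_⟩
      intro i hi
      cases i with
      | inl w => exact Subgroup.mem_top _
      | inr v =>
        have hv : v ∉ S := fun h' => hi ((inr_mem_baseSet159 S v).2 h')
        have hm0 : m v = 0 := hm v fun h0 => hv (hS h0)
        have := h1 v
        rw [hm0] at this
        exact (inU_zero_iff159 v _).1 this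
  have hμA : μ A = (s : ENNReal) * M := by
    rw [← hνW, e1, Measure.smul_apply, hPW]
    rfl
  have hc0s : c0 = (s : ℝ) := by
    rw [hc0, hμA, ENNReal.mul_div_cancel_right hM0 hMt]
    rfl
  have hc0pos : 0 < c0 := by
    rw [hc0s]
    exact_mod_cast hspos
  rw [if_pos hc0pos, hc0s]
  show Measure.map (H305.compS305 S) (μ.restrict {y | H305.OutT305 S y})
      = ENNReal.ofReal (s : ℝ) • P
  rw [hE, ← compHom_eq159, e1, ENNReal.ofReal_coe_nnreal]
  rfl

end Leaf

end Fermat.Agent.LT.T7.H159

end
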