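import Mathlib
import Fermat.Agent.LT.T6.Spec
import Fermat.Agent.LT.T6.H944.OrbSumUniq
import Fermat.Agent.LT.T6.H687.CartanInv
import Fermat.Agent.LT.T6.H546.Iwasawa

/-!
# Row LT, tower T7, asset for the field `matched` of `SupplyC` / `FamC` (helper159), OFF-MAIN

**GOOD UNITS: the local facts at ALMOST ALL places** (vocabulary of `T6/Spec.lean` v3, any field
with a valuation in `ℤᵐ⁰`; elementary, no tree, no orbit-sum machinery).

`γ ∈ GL₂(𝒪)` with `disc γ ∈ 𝒪^×` (a GOOD UNIT).  Then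

* `goodUnit_down159`: `x⁻¹ γ x ∈ GL₂(𝒪)` ⇒ `x ∈ T_γ · GL₂(𝒪)` (`T_γ` = the centraliser): the support
  of `x ↦ 1_{GL₂(𝒪)}(x⁻¹ γ x)` is `T_γ GL₂(𝒪)`;
* `cent_compact159`: the maximal compact subgroup `T_γ^c` (integral trace, unit determinant) of
  the centraliser lies in `GL₂(𝒪)`;
* `cIndex_goodUnit159`: `[T_γ^c : T_γ^c ∩ GL₂(𝒪)] = 1`;
* `unitOrb_down159`: the orbital integral (orbit sum of `T6`) of a function `φ` supported in
  `GL₂(𝒪)` and bi-invariant is `φ γ` (`= 1` for the unit of the Hecke algebra).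

Proof of the first: `𝒪²` and `x 𝒪²` are modules over `𝒪[γ]`, both CYCLIC because `γ mod ϖ` is
regular (one of `e₁`, `e₂`, `e₁ + e₂` is a cyclic vector when the discriminant is a unit); the
`k[γ]`-linear map which sends one cyclic vector to the other is the element of `T_γ`.

USE (global orbital integrals of pure tensors): at the places `v ∉ S(γ)` the cut-off
`β_v = 1_{GL₂(𝒪_v)}` is normalised on the support of the integrand
(`∫_{T_v} β_v(t x) dt = vol(T_v^c) = 1` for `x ∈ T_v GL₂(𝒪_v)`), which is the hypothesis of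
`H159.unfold_cutoff_supp159`.
-/

set_option autoImplicit false

open scoped Matrix

noncomputable section

namespace Fermat.Agent.LT.T7.H159

open Fermat.Agent.LT.T6

/-! ## 1. Matrix algebra: the matrix `[w | A w]` -/

section Algebra

variable {k : Type} [Field k]

/-- The matrix with columns `w` and `A w`. -/
def colMat159 (A : Matrix (Fin 2) (Fin 2) k) (w : Fin 2 → k) : Matrix (Fin 2) (Fin 2) k :=
  !![w 0, A 0 0 * w 0 + A 0 1 * w 1; w 1, A 1 0 * w 0 + A 1 1 * w 1]

/-- The companion matrix of the characteristic polynomial of `A`. -/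
def compMat159 (A : Matrix (Fin 2) (Fin 2) k) : Matrix (Fin 2) (Fin 2) k :=
  !![0, -A.det; 1, A.trace]

/-- Cayley--Hamilton: `A [w | A w] = [w | A w] C_A`. -/
theorem mul_colMat159 (A : Matrix (Fin 2) (Fin 2) k) (w : Fin 2 → k) :
    A * colMat159 A w = colMat159 A w * compMat159 A := by
  ext i j
  fin_cases i <;> fin_cases j <;>
    simp [colMat159, compMat159, Matrix.mul_apply, Fin.sum_univ_two, Matrix.det_fin_two,
      Matrix.trace_fin_two] <;> ring

/-- If `B A = A' B` then `B [w | A w] = [B w | A' B w]`. -/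
theorem intertwine_colMat159 (A A' B : Matrix (Fin 2) (Fin 2) k) (h : B * A = A' * B)
    (w : Fin 2 → k) :
    B * colMat159 A w = colMat159 A' (B.mulVec w) := by
  have h00 := congrFun (congrFun h 0) 0
  have h01 := congrFun (congrFun h 0) 1
  have h10 := congrFun (congrFun h 1) 0
  have h11 := congrFun (congrFun h 1) 1
  simp only [Matrix.mul_apply, Fin.sum_univ_two] at h00 h01 h10 h11
  ext i j
  fin_cases i <;> fin_cases j <;>
    simp [colMat159, Matrix.mul_apply, Fin.sum_univ_two, Matrix.mulVec, dotProduct]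
  · linear_combination w 0 * h00 + w 1 * h01
  · linear_combination w 0 * h10 + w 1 * h11

theorem det_colMat159 (A : Matrix (Fin 2) (Fin 2) k) (w : Fin 2 → k) :
    (colMat159 A w).det
      = w 0 * (A 1 0 * w 0 + A 1 1 * w 1) - (A 0 0 * w 0 + A 0 1 * w 1) * w 1 := by
  simp [colMat159, Matrix.det_fin_two]

end Algebra

/-! ## 2. Valuations -/

section Val

variable {k : Type} [Field k] [Valued k Γ₀]

theorem v_natCast_le_one159 (n : ℕ) : Valued.v (n : k) ≤ 1 := by
  induction n with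
  | zero => simp
  | succ n ih =>
    rw [Nat.cast_succ]
    exact (Valuation.map_add _ _ _).trans (max_le ih (by simp))

theorem v_four_le_one159 : Valued.v (4 : k) ≤ 1 := by
  have := v_natCast_le_one159 (k := k) 4
  simpa using this

/-- An element of `GL₂(k)` with integral entries and unit determinant lies in `U(0)`. -/
theorem inU_zero_of_det159 (g : GL (Fin 2) k)
    (h1 : ∀ i j : Fin 2, Valued.v ((g : Matrix (Fin 2) (Fin 2) k) i j) ≤ 1)
    (hd : Valued.v (g : Matrix (Fin 2) (Fin 2) k).det = 1) : InU 0 g := by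
  refine H288.H546.inU_zero_of_integral_h546 g h1 ?_
  intro i j
  have hinv : ((g⁻¹ : GL (Fin 2) k) : Matrix (Fin 2) (Fin 2) k)
      = (g : Matrix (Fin 2) (Fin 2) k)⁻¹ := Matrix.coe_units_inv g
  rw [hinv, Matrix.inv_def, Matrix.adjugate_fin_two, Ring.inverse_eq_inv']
  fin_cases i <;> fin_cases j <;>
    simp [Matrix.smul_apply, hd, h1]

omit [Valued k Γ₀] in
/-- The discriminant in terms of the entries. -/
theorem disc_eq159 (y : GL (Fin 2) k) :
    disc y = ((y : Matrix (Fin 2) (Fin 2) k) 0 0 - (y : Matrix (Fin 2) (Fin 2) k) 1 1) ^ 2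
      + 4 * ((y : Matrix (Fin 2) (Fin 2) k) 0 1 * (y : Matrix (Fin 2) (Fin 2) k) 1 0) := by
  simp only [disc, Matrix.trace_fin_two, Matrix.det_fin_two]
  ring

/-- **A cyclic vector.**  For `y ∈ GL₂(𝒪)` with unit discriminant one of `e₁`, `e₂`, `e₁ + e₂`
is a cyclic vector of `𝒪²` over `𝒪[y]`: the matrix `[w | y w]` has unit determinant. -/
theorem exists_cyclic159 (y : GL (Fin 2) k) (hy : InU 0 y) (hd : Valued.v (disc y) = 1) :
    ∃ w : Fin 2 → k, (∀ i, Valued.v (w i) ≤ 1) ∧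
      Valued.v (colMat159 (y : Matrix (Fin 2) (Fin 2) k) w).det = 1 := by
  have ha := H687.entry_le_one_of_inU_h687 hy 0 0
  have hb := H687.entry_le_one_of_inU_h687 hy 0 1
  have hc := H687.entry_le_one_of_inU_h687 hy 1 0
  have hdd := H687.entry_le_one_of_inU_h687 hy 1 1
  set a := (y : Matrix (Fin 2) (Fin 2) k) 0 0 with ha'
  set b := (y : Matrix (Fin 2) (Fin 2) k) 0 1 with hb'
  set c := (y : Matrix (Fin 2) (Fin 2) k) 1 0 with hc'
  set d := (y : Matrix (Fin 2) (Fin 2) k) 1 1 with hd'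
  by_cases h1 : Valued.v c = 1
  · refine ⟨![1, 0], ?_, ?_⟩
    · intro i; fin_cases i <;> simp
    · rw [det_colMat159]
      simpa using h1
  by_cases h2 : Valued.v b = 1
  · refine ⟨![0, 1], ?_, ?_⟩
    · intro i; fin_cases i <;> simp
    · rw [det_colMat159]
      simpa using h2
  have hc1 : Valued.v c < 1 := lt_of_le_of_ne hc h1
  have hb1 : Valued.v b < 1 := lt_of_le_of_ne hb h2
  refine ⟨![1, 1], ?_, ?_⟩
  · intro i; fin_cases i <;> simp
  · rw [det_colMat159]
    have hbc : Valued.v (4 * (b * c)) < 1 := by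
      rw [Valuation.map_mul, Valuation.map_mul]
      calc Valued.v (4 : k) * (Valued.v b * Valued.v c)
          ≤ 1 * (Valued.v b * 1) := mul_le_mul' v_four_le_one159 (mul_le_mul' le_rfl hc)
        _ = Valued.v b := by simp
        _ < 1 := hb1
    have hsq : Valued.v ((a - d) ^ 2) = 1 := by
      have hle : Valued.v ((a - d) ^ 2) ≤ 1 := by
        rw [Valuation.map_pow]
        exact pow_le_one' (Valuation.map_sub_le _ ha hdd) 2
      by_contra hne
      have hlt : Valued.v ((a - d) ^ 2) < 1 := lt_of_le_of_ne hle hne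
      have : Valued.v (disc y) < 1 := by
        rw [disc_eq159]
        exact lt_of_le_of_lt (Valuation.map_add _ _ _) (max_lt hlt hbc)
      rw [hd] at this
      exact lt_irrefl _ this
    have had : Valued.v (a - d) = 1 := by
      have hle : Valued.v (a - d) ≤ 1 := Valuation.map_sub_le _ ha hdd
      by_contra hne
      have hlt : Valued.v (a - d) < 1 := lt_of_le_of_ne hle hne
      rw [Valuation.map_pow, pow_two] at hsq
      have : Valued.v (a - d) * Valued.v (a - d) < 1 :=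
        lt_of_le_of_lt (mul_le_mul' hle le_rfl) (by simpa using hlt)
      rw [hsq] at this
      exact lt_irrefl _ this
    have hcb : Valued.v (c - b) < 1 :=
      lt_of_le_of_lt (Valuation.map_sub _ _ _) (max_lt hc1 hb1)
    have e : (![1, 1] : Fin 2 → k) 0 * (c * (![1, 1] : Fin 2 → k) 0 + d * (![1, 1] : Fin 2 → k) 1)
        - (a * (![1, 1] : Fin 2 → k) 0 + b * (![1, 1] : Fin 2 → k) 1) * (![1, 1] : Fin 2 → k) 1
        = (c - b) + (-(a - d)) := by
      simp
      ring
    rw [e, Valuation.map_add_eq_of_lt_right]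
    · rw [Valuation.map_neg, had]
    · rw [Valuation.map_neg, had]
      exact hcb

omit [Valued k Γ₀] in
theorem disc_conj159 (γ x : GL (Fin 2) k) : disc (x⁻¹ * γ * x) = disc γ := by
  have ht : ((x⁻¹ * γ * x : GL (Fin 2) k) : Matrix (Fin 2) (Fin 2) k).trace
      = (γ : Matrix (Fin 2) (Fin 2) k).trace := by
    rw [Units.val_mul, Units.val_mul, Matrix.trace_mul_comm, ← mul_assoc, ← Units.val_mul,
      mul_inv_cancel, Units.val_one, one_mul]
  have hdet : ((x⁻¹ * γ * x : GL (Fin 2) k) : Matrix (Fin 2) (Fin 2) k).det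
      = (γ : Matrix (Fin 2) (Fin 2) k).det := by
    rw [Units.val_mul, Units.val_mul, Matrix.det_mul, Matrix.det_mul, mul_comm, ← mul_assoc,
      ← Matrix.det_mul, ← Units.val_mul, mul_inv_cancel, Units.val_one, Matrix.det_one, one_mul]
  simp only [disc, ht, hdet]

/-- The entries of `[w | y w]` are integral. -/
theorem colMat_integral159 (y : GL (Fin 2) k) (hy : InU 0 y) (w : Fin 2 → k)
    (hw : ∀ i, Valued.v (w i) ≤ 1) (i j : Fin 2) :
    Valued.v (colMat159 (y : Matrix (Fin 2) (Fin 2) k) w i j) ≤ 1 := by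
  have he := fun a b => H687.entry_le_one_of_inU_h687 hy a b
  have hm : ∀ a b c d : k, Valued.v a ≤ 1 → Valued.v b ≤ 1 → Valued.v c ≤ 1 → Valued.v d ≤ 1 →
      Valued.v (a * b + c * d) ≤ 1 := by
    intro a b c d ha hb hc hd
    refine (Valuation.map_add _ _ _).trans (max_le ?_ ?_)
    · rw [Valuation.map_mul]; exact mul_le_one' ha hb
    · rw [Valuation.map_mul]; exact mul_le_one' hc hd
  fin_cases i <;> fin_cases j
  · simpa [colMat159] using hw 0
  · simpa [colMat159] using hm _ _ _ _ (he 0 0) (hw 0) (he 0 1) (hw 1)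
  · simpa [colMat159] using hw 1
  · simpa [colMat159] using hm _ _ _ _ (he 1 0) (hw 0) (he 1 1) (hw 1)

/-- The cyclic basis as an element of `GL₂(𝒪)`. -/
theorem exists_cyclicGL159 (y : GL (Fin 2) k) (hy : InU 0 y) (hd : Valued.v (disc y) = 1) :
    ∃ (w : Fin 2 → k) (P : GL (Fin 2) k), InU 0 P ∧
      (P : Matrix (Fin 2) (Fin 2) k) = colMat159 (y : Matrix (Fin 2) (Fin 2) k) w := by
  obtain ⟨w, hw, hdet⟩ := exists_cyclic159 y hy hd
  have hne : (colMat159 (y : Matrix (Fin 2) (Fin 2) k) w).det ≠ 0 := by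
    intro h0
    rw [h0, Valuation.map_zero] at hdet
    exact zero_ne_one hdet
  refine ⟨w, Matrix.GeneralLinearGroup.mkOfDetNeZero _ hne, ?_, rfl⟩
  refine inU_zero_of_det159 _ ?_ ?_
  · intro i j
    exact colMat_integral159 y hy w hw i j
  · exact hdet

/-- **GOOD UNIT, support form.**  `γ ∈ GL₂(𝒪)` with unit discriminant, `x⁻¹ γ x ∈ GL₂(𝒪)`:
then `x = t u` with `t` in the centraliser of `γ` and `u ∈ GL₂(𝒪)`. -/
theorem goodUnit_down159 (γ x : GL (Fin 2) k) (hγ : InU 0 γ) (hd : Valued.v (disc γ) = 1)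
    (hx : InU 0 (x⁻¹ * γ * x)) :
    ∃ t u : GL (Fin 2) k, t * γ = γ * t ∧ InU 0 u ∧ x = t * u := by
  have hdy : Valued.v (disc (x⁻¹ * γ * x)) = 1 := by rw [disc_conj159, hd]
  obtain ⟨w', P', hP', hP'm⟩ := exists_cyclicGL159 (x⁻¹ * γ * x) hx hdy
  obtain ⟨w₀, P₀, hP₀, hP₀m⟩ := exists_cyclicGL159 γ hγ hd
  refine ⟨x * P' * P₀⁻¹, P₀ * P'⁻¹, ?_, ?_, by group⟩
  · -- commutation
    have hxy : (x : Matrix (Fin 2) (Fin 2) k) * ((x⁻¹ * γ * x : GL (Fin 2) k) :
        Matrix (Fin 2) (Fin 2) k) = (γ : Matrix (Fin 2) (Fin 2) k) * x := by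
      rw [← Units.val_mul, ← Units.val_mul]
      congr 1
      group
    have hinv1 : ((P₀⁻¹ : GL (Fin 2) k) : Matrix (Fin 2) (Fin 2) k)
        * (P₀ : Matrix (Fin 2) (Fin 2) k) = 1 := by
      rw [← Units.val_mul, inv_mul_cancel, Units.val_one]
    have hinv2 : (P₀ : Matrix (Fin 2) (Fin 2) k)
        * ((P₀⁻¹ : GL (Fin 2) k) : Matrix (Fin 2) (Fin 2) k) = 1 := by
      rw [← Units.val_mul, mul_inv_cancel, Units.val_one]
    apply Units.ext
    simp only [Units.val_mul]
    generalize ((P₀⁻¹ : GL (Fin 2) k) : Matrix (Fin 2) (Fin 2) k) = N₀ at hinv1 hinv2 ⊢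
    generalize hX : (x : Matrix (Fin 2) (Fin 2) k) = X at hxy ⊢
    generalize hG : (γ : Matrix (Fin 2) (Fin 2) k) = G at hxy hP₀m ⊢
    generalize hM' : (P' : Matrix (Fin 2) (Fin 2) k) = M' at hP'm ⊢
    generalize hM₀ : (P₀ : Matrix (Fin 2) (Fin 2) k) = M₀ at hP₀m hinv1 hinv2 ⊢
    have h1 : X * M' = colMat159 G (X.mulVec w') := by
      rw [hP'm]
      exact intertwine_colMat159 _ _ _ hxy w'
    have h2 : G * (X * M') = (X * M') * compMat159 G := by
      rw [h1]
      exact mul_colMat159 _ _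
    have h3 : G * M₀ = M₀ * compMat159 G := by
      rw [hP₀m]
      exact mul_colMat159 _ _
    have h4 : N₀ * G = compMat159 G * N₀ := by
      calc N₀ * G = N₀ * G * (M₀ * N₀) := by rw [hinv2, mul_one]
        _ = N₀ * (G * M₀) * N₀ := by simp only [mul_assoc]
        _ = compMat159 G * N₀ := by rw [h3, ← mul_assoc, hinv1, one_mul]
    calc X * M' * N₀ * G = (X * M') * (N₀ * G) := by simp only [mul_assoc]
      _ = (G * (X * M')) * N₀ := by rw [h4, h2]; simp only [mul_assoc]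
      _ = G * (X * M' * N₀) := by simp only [mul_assoc]
  · exact H944.inU_mul944 0 _ _ hP₀ (H944.inU_inv944 0 _ hP')

omit [Valued k Γ₀] in
/-- `[w | A w] c = (c₀ + c₁ A) w`. -/
theorem colMat_mulVec159 (A : Matrix (Fin 2) (Fin 2) k) (w c : Fin 2 → k) :
    (colMat159 A w).mulVec c = (c 0 • (1 : Matrix (Fin 2) (Fin 2) k) + c 1 • A).mulVec w := by
  ext i
  fin_cases i <;>
    simp [colMat159, Matrix.mulVec, dotProduct, Fin.sum_univ_two, Matrix.add_apply,
      Matrix.smul_apply, Matrix.one_apply] <;> ring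

omit [Valued k Γ₀] in
theorem trace_lin159 (A : Matrix (Fin 2) (Fin 2) k) (a b : k) :
    (a • (1 : Matrix (Fin 2) (Fin 2) k) + b • A).trace = 2 * a + b * A.trace := by
  simp [Matrix.trace_fin_two]
  ring

omit [Valued k Γ₀] in
theorem det_lin159 (A : Matrix (Fin 2) (Fin 2) k) (a b : k) :
    (a • (1 : Matrix (Fin 2) (Fin 2) k) + b • A).det
      = a ^ 2 + a * b * A.trace + b ^ 2 * A.det := by
  simp [Matrix.det_fin_two, Matrix.trace_fin_two, Matrix.add_apply, Matrix.smul_apply]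
  ring

omit [Valued k Γ₀] in
/-- An element of the centraliser of `γ` is `a + b γ` when `γ` has a cyclic vector. -/
theorem cent_eq_lin159 (G T M₀ N₀ : Matrix (Fin 2) (Fin 2) k) (w₀ : Fin 2 → k)
    (hM : M₀ = colMat159 G w₀) (h1 : M₀ * N₀ = 1) (hT : T * G = G * T) :
    ∃ a b : k, T = a • (1 : Matrix (Fin 2) (Fin 2) k) + b • G := by
  set c : Fin 2 → k := N₀.mulVec (T.mulVec w₀) with hc
  refine ⟨c 0, c 1, ?_⟩
  have e1 : M₀.mulVec c = T.mulVec w₀ := by
    rw [hc, Matrix.mulVec_mulVec, h1, Matrix.one_mulVec]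
  have e2 : (c 0 • (1 : Matrix (Fin 2) (Fin 2) k) + c 1 • G).mulVec w₀ = T.mulVec w₀ := by
    rw [← colMat_mulVec159, ← hM, e1]
  have hB : (c 0 • (1 : Matrix (Fin 2) (Fin 2) k) + c 1 • G) * G
      = G * (c 0 • (1 : Matrix (Fin 2) (Fin 2) k) + c 1 • G) := by
    simp [add_mul, mul_add]
  have e3 : T * M₀ = (c 0 • (1 : Matrix (Fin 2) (Fin 2) k) + c 1 • G) * M₀ := by
    rw [hM, intertwine_colMat159 G G T hT w₀, intertwine_colMat159 G G _ hB w₀, e2]
  calc T = T * (M₀ * N₀) := by rw [h1, mul_one]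
    _ = (T * M₀) * N₀ := by rw [mul_assoc]
    _ = ((c 0 • (1 : Matrix (Fin 2) (Fin 2) k) + c 1 • G) * M₀) * N₀ := by rw [e3]
    _ = c 0 • (1 : Matrix (Fin 2) (Fin 2) k) + c 1 • G := by rw [mul_assoc, h1, mul_one]

/-- A root of a monic quadratic polynomial with integral coefficients is integral. -/
theorem v_root_le_one159 (a p r : k) (hp : Valued.v p ≤ 1) (hr : Valued.v r ≤ 1)
    (h : a ^ 2 + p * a + r = 0) : Valued.v a ≤ 1 := by
  by_contra hlt
  have hgt : 1 < Valued.v a := lt_of_not_ge hlt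
  have ha0 : Valued.v a ≠ 0 := ne_of_gt (lt_trans zero_lt_one hgt)
  have h1 : Valued.v (p * a) < Valued.v (a ^ 2) := by
    rw [Valuation.map_mul, Valuation.map_pow, pow_two]
    have hpos : (0 : Γ₀) < Valued.v a := lt_trans zero_lt_one hgt
    calc Valued.v p * Valued.v a ≤ 1 * Valued.v a := mul_le_mul' hp le_rfl
      _ = Valued.v a := one_mul _
      _ = 1 * Valued.v a := (one_mul _).symm
      _ < Valued.v a * Valued.v a := by
          exact mul_lt_mul_of_pos_right hgt hpos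
  have h2 : Valued.v r < Valued.v (a ^ 2) := by
    rw [Valuation.map_pow, pow_two]
    have hpos : (0 : Γ₀) < Valued.v a := lt_trans zero_lt_one hgt
    calc Valued.v r ≤ 1 := hr
      _ < Valued.v a := hgt
      _ = 1 * Valued.v a := (one_mul _).symm
      _ < Valued.v a * Valued.v a := mul_lt_mul_of_pos_right hgt hpos
  have h3 : Valued.v (p * a + r) < Valued.v (a ^ 2) :=
    lt_of_le_of_lt (Valuation.map_add _ _ _) (max_lt h1 h2)
  have h4 : a ^ 2 = -(p * a + r) := by linear_combination h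
  rw [h4, Valuation.map_neg] at h3
  exact lt_irrefl _ h3

/-- **The maximal compact subgroup of the centraliser of a good unit lies in `GL₂(𝒪)`.** -/
theorem cent_compact159 (γ t : GL (Fin 2) k) (hγ : InU 0 γ) (hd : Valued.v (disc γ) = 1)
    (ht : t * γ = γ * t)
    (htr : Valued.v (t : Matrix (Fin 2) (Fin 2) k).trace ≤ 1)
    (hdet : Valued.v (t : Matrix (Fin 2) (Fin 2) k).det = 1) : InU 0 t := by
  obtain ⟨w₀, P₀, -, hP₀m⟩ := exists_cyclicGL159 γ hγ hd
  have hinv2 : (P₀ : Matrix (Fin 2) (Fin 2) k)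
      * ((P₀⁻¹ : GL (Fin 2) k) : Matrix (Fin 2) (Fin 2) k) = 1 := by
    rw [← Units.val_mul, mul_inv_cancel, Units.val_one]
  have hT : (t : Matrix (Fin 2) (Fin 2) k) * (γ : Matrix (Fin 2) (Fin 2) k)
      = (γ : Matrix (Fin 2) (Fin 2) k) * (t : Matrix (Fin 2) (Fin 2) k) := by
    rw [← Units.val_mul, ← Units.val_mul, ht]
  obtain ⟨a, b, hab⟩ := cent_eq_lin159 (γ : Matrix (Fin 2) (Fin 2) k)
    (t : Matrix (Fin 2) (Fin 2) k) _ _ w₀ hP₀m hinv2 hT
  have hGtr : Valued.v (γ : Matrix (Fin 2) (Fin 2) k).trace ≤ 1 := by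
    rw [Matrix.trace_fin_two]
    exact (Valuation.map_add _ _ _).trans
      (max_le (H687.entry_le_one_of_inU_h687 hγ 0 0) (H687.entry_le_one_of_inU_h687 hγ 1 1))
  have hGdet : Valued.v (γ : Matrix (Fin 2) (Fin 2) k).det = 1 :=
    H687.v_det_eq_one_of_inU_h687 hγ
  have etr : (t : Matrix (Fin 2) (Fin 2) k).trace
      = 2 * a + b * (γ : Matrix (Fin 2) (Fin 2) k).trace := by
    rw [hab, trace_lin159]
  have edet : (t : Matrix (Fin 2) (Fin 2) k).det
      = a ^ 2 + a * b * (γ : Matrix (Fin 2) (Fin 2) k).trace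
        + b ^ 2 * (γ : Matrix (Fin 2) (Fin 2) k).det := by
    rw [hab, det_lin159]
  -- `b` is integral
  have hdisc : b ^ 2 * disc γ = (t : Matrix (Fin 2) (Fin 2) k).trace ^ 2
      - 4 * (t : Matrix (Fin 2) (Fin 2) k).det := by
    rw [etr, edet]
    simp only [disc]
    ring
  have hb : Valued.v b ≤ 1 := by
    have h1 : Valued.v (b ^ 2 * disc γ) ≤ 1 := by
      rw [hdisc]
      refine (Valuation.map_sub _ _ _).trans (max_le ?_ ?_)
      · rw [Valuation.map_pow]
        exact pow_le_one' htr 2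
      · rw [Valuation.map_mul, hdet, mul_one]
        exact v_four_le_one159
    rw [Valuation.map_mul, hd, mul_one, Valuation.map_pow] at h1
    by_contra hlt
    have hgt : 1 < Valued.v b := lt_of_not_ge hlt
    have : 1 < Valued.v b ^ 2 := one_lt_pow' hgt two_ne_zero
    exact absurd h1 (not_le.2 this)
  -- `a` is integral
  have ha : Valued.v a ≤ 1 := by
    refine v_root_le_one159 a (b * (γ : Matrix (Fin 2) (Fin 2) k).trace)
      (b ^ 2 * (γ : Matrix (Fin 2) (Fin 2) k).det - (t : Matrix (Fin 2) (Fin 2) k).det) ?_ ?_ ?_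
    · rw [Valuation.map_mul]
      exact mul_le_one' hb hGtr
    · refine (Valuation.map_sub _ _ _).trans (max_le ?_ (le_of_eq hdet))
      rw [Valuation.map_mul, Valuation.map_pow, hGdet, mul_one]
      exact pow_le_one' hb 2
    · rw [edet]
      ring
  refine inU_zero_of_det159 t ?_ hdet
  intro i j
  rw [hab, Matrix.add_apply, Matrix.smul_apply, Matrix.smul_apply]
  refine (Valuation.map_add _ _ _).trans (max_le ?_ ?_)
  · rw [smul_eq_mul, Valuation.map_mul]
    exact mul_le_one' ha (H687.v_one_apply_le_one_h687 i j)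
  · rw [smul_eq_mul, Valuation.map_mul]
    exact mul_le_one' hb (H687.entry_le_one_of_inU_h687 hγ i j)

/-! ## 3. The orbit sum at a good unit -/

omit [Valued k Γ₀] in
theorem glAut_refl159 (x : GL (Fin 2) k) : glAut (RingEquiv.refl k) x = x := by
  apply Units.ext
  ext a b
  rfl

theorem v_two_le_one159 : Valued.v (2 : k) ≤ 1 := by
  have := v_natCast_le_one159 (k := k) 2
  simpa using this

/-- A conjugate of a good unit by an element of `GL₂(𝒪)` is a good unit. -/
theorem inU_conj159 (γ u : GL (Fin 2) k) (hγ : InU 0 γ) (hu : InU 0 u) :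
    InU 0 (u⁻¹ * γ * u) :=
  H944.inU_mul944 0 _ _ (H944.inU_mul944 0 _ _ (H944.inU_inv944 0 _ hu) hγ) hu

/-- **`[T_γ^c : T_γ^c ∩ GL₂(𝒪)] = 1` at a good unit.** -/
theorem cIndex_goodUnit159 (γ : GL (Fin 2) k) (hγ : InU 0 γ) (hd : Valued.v (disc γ) = 1) :
    cIndex (InU 0) (InTwCentC (RingEquiv.refl k)) γ = 1 := by
  have hset : {c : Set (GL (Fin 2) k) | ∃ t : GL (Fin 2) k,
      InTwCentC (RingEquiv.refl k) γ t ∧ c = {g | ∃ u : GL (Fin 2) k, InU 0 u ∧ g = t * u}}
      = {{g : GL (Fin 2) k | InU 0 g}} := by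
    ext c
    simp only [Set.mem_ofPred_eq, Set.mem_singleton_iff]
    constructor
    · rintro ⟨t, ⟨htc, htr, hdet⟩, rfl⟩
      have hcomm : t * γ = γ * t := by
        have h := htc
        unfold InTwCent at h
        rw [glAut_refl159] at h
        calc t * γ = t * (t⁻¹ * γ * t) := by rw [h]
          _ = γ * t := by group
      have htU : InU 0 t := cent_compact159 γ t hγ hd hcomm htr hdet
      ext g
      simp only [Set.mem_ofPred_eq]
      constructor
      · rintro ⟨u, hu, rfl⟩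
        exact H944.inU_mul944 0 _ _ htU hu
      · intro hg
        exact ⟨t⁻¹ * g, H944.inU_mul944 0 _ _ (H944.inU_inv944 0 _ htU) hg, by group⟩
    · rintro rfl
      refine ⟨1, ⟨?_, ?_, ?_⟩, ?_⟩
      · unfold InTwCent
        rw [glAut_refl159]
        group
      · rw [Units.val_one, Matrix.trace_one]
        simpa using v_two_le_one159 (k := k)
      · simp
      · ext g
        simp
  unfold cIndex
  rw [hset, Set.ncard_singleton]

/-- **The orbital integral at a good unit of a function supported in `GL₂(𝒪)`** is its value: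
`O_γ(φ) = φ(γ)`; in particular `O_γ(1_{GL₂(𝒪)}) = 1`. -/
theorem unitOrb_down159 (γ : GL (Fin 2) k) (hγ : InU 0 γ) (hd : Valued.v (disc γ) = 1)
    (φ : GL (Fin 2) k → ℂ) (hφ : IsBiInv (InU 0) φ)
    (hsupp : ∀ g : GL (Fin 2) k, φ g ≠ 0 → InU 0 g) (c : ℂ) (hc : IsOrbSum 0 φ γ c) :
    c = φ γ := by
  obtain ⟨R, hR1, hR2, hR3, hsum⟩ := hc
  simp only [glAut_refl159] at hR1 hR2 hR3
  -- the elements of `R` on which `φ` does not vanish are conjugate to `γ` under `GL₂(𝒪)`
  have key : ∀ y ∈ R, φ y ≠ 0 → ∃ u : GL (Fin 2) k, InU 0 u ∧ y = u⁻¹ * γ * u := by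
    intro y hy hne
    obtain ⟨x, rfl⟩ := hR1 y hy
    obtain ⟨t, u, htγ, hu, rfl⟩ := goodUnit_down159 γ x hγ hd (hsupp _ hne)
    refine ⟨u, hu, ?_⟩
    calc (t * u)⁻¹ * γ * (t * u) = u⁻¹ * (t⁻¹ * (γ * t)) * u := by group
      _ = u⁻¹ * (t⁻¹ * (t * γ)) * u := by rw [htγ]
      _ = u⁻¹ * γ * u := by group
  have hval : ∀ u : GL (Fin 2) k, InU 0 u → φ (u⁻¹ * γ * u) = φ γ := fun u hu =>
    hφ u⁻¹ u γ (H944.inU_inv944 0 _ hu) hu
  by_cases h0 : φ γ = 0
  · rw [hsum, h0]
    refine Finset.sum_eq_zero fun y hy => ?_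
    by_cases hy0 : φ y = 0
    · rw [hy0, zero_mul]
    · obtain ⟨u, hu, rfl⟩ := key y hy hy0
      exact absurd (by rw [hval u hu, h0]) hy0
  · obtain ⟨y₀, hy₀, u₀, hu₀, hγy⟩ := hR3 γ ⟨1, by group⟩ h0
    have hy₀γ : y₀ = (u₀⁻¹)⁻¹ * γ * u₀⁻¹ := by
      rw [hγy]
      group
    have hφy₀ : φ y₀ = φ γ := by
      rw [hy₀γ]
      exact hval u₀⁻¹ (H944.inU_inv944 0 _ hu₀)
    have hU₀ : InU 0 y₀ := by
      rw [hy₀γ]
      exact inU_conj159 γ u₀⁻¹ hγ (H944.inU_inv944 0 _ hu₀)
    have hd₀ : Valued.v (disc y₀) = 1 := by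
      rw [hy₀γ, disc_conj159, hd]
    rw [hsum, Finset.sum_eq_single y₀]
    · rw [cIndex_goodUnit159 y₀ hU₀ hd₀, hφy₀]
      simp
    · intro y hy hne
      by_cases hy0 : φ y = 0
      · rw [hy0, zero_mul]
      · exfalso
        obtain ⟨u, hu, hyu⟩ := key y hy hy0
        apply hne
        refine (hR2 y₀ hy₀ y hy ⟨u₀ * u, H944.inU_mul944 0 _ _ hu₀ hu, ?_⟩).symm
        rw [hyu, hγy]
        group
    · intro hn
      exact absurd hy₀ hn

end Val

end Fermat.Agent.LT.T7.H159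

end
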