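import Mathlib
import Fermat.Agent.LT.T6.Spec
import Fermat.Agent.LT.T6.H848.NormInj
import Fermat.Agent.LT.T7.H159.GoodUnit

/-!
# Row LT, tower T7, asset for the field `matched` of `SupplyC` / `FamC` (helper159), OFF-MAIN

**GOOD UNITS, TWISTED (inert place).**  `k'/k` unramified of prime degree `l` with generator
`s`; `δ ∈ GL₂(𝒪')` with `disc (N δ) ∈ 𝒪'^×`.

* `twCent_compact159` (elementary): the maximal compact subgroup of the twisted centraliser of a
  `y ∈ GL₂(𝒪')` with `disc (N y)` a unit lies in `GL₂(𝒪')` (it commutes with the good unit `N y`);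
  `cIndex_goodUnit_tw159`: the index of `T6` is `1`;
* `unitOrb_up159`: the twisted orbit sum of the unit `1_{GL₂(𝒪')}` at `δ` is `1`
  (`T6.FundLemmaC` for the unit + `unitOrb_down159` at the companion matrix of `N δ`);
* `goodUnit_up159`: `x⁻¹ δ s(x) ∈ GL₂(𝒪')` ⇒ `x = t u`, `t` in the twisted centraliser of `δ`,
  `u ∈ GL₂(𝒪')`: the support of `x ↦ 1_{GL₂(𝒪')}(x⁻¹ δ s(x))` is `T'_δ GL₂(𝒪')`.

The Props of `T6` are HYPOTHESES (`FundLemmaC`, `OrbSumExC`, `NormClassC`; all closed in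
`T6/Closed.lean` of helper22).
-/

set_option autoImplicit false

open scoped Matrix

noncomputable section

namespace Fermat.Agent.LT.T7.H159

open Fermat.Agent.LT.T6

/-! ## 1. The compact part of the twisted centraliser -/

section Tw

variable {k : Type} [Field k] [Valued k Γ₀]

/-- The twisted norm of an element of `GL₂(𝒪)` lies in `GL₂(𝒪)`. -/
theorem inU_twNorm159 (s : k ≃+* k) (hv : ∀ y : k, Valued.v (s y) = Valued.v y) (n : ℕ)
    (y : GL (Fin 2) k) (hy : InU 0 y) : InU 0 (twNorm s n y) := by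
  induction n with
  | zero =>
    show InU 0 (1 : GL (Fin 2) k)
    exact inU_zero_of_det159 1 (fun i j => H687.v_one_apply_le_one_h687 i j) (by simp)
  | succ n ih =>
    show InU 0 (y * glAut s (twNorm s n y))
    exact H944.inU_mul944 0 _ _ hy (H944.inU_glAut944 s hv 0 _ ih)

omit [Valued k Γ₀] in
/-- An element of the twisted centraliser of `y` commutes with `N y`. -/
theorem comm_of_inTwCent159 (s : k ≃+* k) {l : ℕ} (hord : ∀ y : k, (s ^ l) y = y)
    (y t : GL (Fin 2) k) (ht : InTwCent s y t) : t * twNorm s l y = twNorm s l y * t := by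
  have h := H848.twNorm_twConj848 s hord t y
  unfold InTwCent at ht
  rw [ht] at h
  calc t * twNorm s l y = t * (t⁻¹ * twNorm s l y * t) := by rw [← h]
    _ = twNorm s l y * t := by group

/-- **The maximal compact subgroup of the twisted centraliser of a good unit lies in
`GL₂(𝒪)`.** -/
theorem twCent_compact159 (s : k ≃+* k) (hv : ∀ y : k, Valued.v (s y) = Valued.v y) {l : ℕ}
    (hord : ∀ y : k, (s ^ l) y = y) (y t : GL (Fin 2) k) (hy : InU 0 y)
    (hd : Valued.v (disc (twNorm s l y)) = 1) (ht : InTwCentC s y t) : InU 0 t :=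
  cent_compact159 (twNorm s l y) t (inU_twNorm159 s hv l y hy) hd
    (comm_of_inTwCent159 s hord y t ht.1) ht.2.1 ht.2.2

/-- **`[T'^c : T'^c ∩ GL₂(𝒪)] = 1` at a twisted good unit.** -/
theorem cIndex_goodUnit_tw159 (s : k ≃+* k) (hv : ∀ y : k, Valued.v (s y) = Valued.v y) {l : ℕ}
    (hord : ∀ y : k, (s ^ l) y = y) (y : GL (Fin 2) k) (hy : InU 0 y)
    (hd : Valued.v (disc (twNorm s l y)) = 1) :
    cIndex (InU 0) (InTwCentC s) y = 1 := by
  have hset : {c : Set (GL (Fin 2) k) | ∃ t : GL (Fin 2) k,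
      InTwCentC s y t ∧ c = {g | ∃ u : GL (Fin 2) k, InU 0 u ∧ g = t * u}}
      = {{g : GL (Fin 2) k | InU 0 g}} := by
    ext c
    simp only [Set.mem_ofPred_eq, Set.mem_singleton_iff]
    constructor
    · rintro ⟨t, htc, rfl⟩
      have htU : InU 0 t := twCent_compact159 s hv hord y t hy hd htc
      ext g
      simp only [Set.mem_ofPred_eq]
      constructor
      · rintro ⟨u, hu, rfl⟩
        exact H944.inU_mul944 0 _ _ htU hu
      · intro hg
        exact ⟨t⁻¹ * g, H944.inU_mul944 0 _ _ (H944.inU_inv944 0 _ htU) hg, by group⟩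
    · rintro rfl
      refine ⟨1, ⟨?_, ?_, ?_⟩, ?_⟩
      · unfold InTwCent
        rw [map_one]
        group
      · rw [Units.val_one, Matrix.trace_one]
        simpa using v_two_le_one159 (k := k)
      · simp
      · ext g
        simp
  unfold cIndex
  rw [hset, Set.ncard_singleton]

/-! ## 2. The unit of the Hecke algebra -/

/-- The unit of the spherical Hecke algebra, as a function of the Cartan invariant. -/
def unitFn159 : (ℤ × ℤ) →₀ ℂ := Finsupp.single (0, 0) 1

theorem isDominant_unitFn159 : IsDominant unitFn159 := by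
  intro lam hlam
  have : lam = (0, 0) := by
    by_contra hne
    have : unitFn159 lam = 0 := by
      unfold unitFn159
      rw [Finsupp.single_apply, if_neg (Ne.symm hne)]
    exact (Finsupp.mem_support_iff.1 hlam) this
  rw [this]

theorem isBC_unitFn159 (l q : ℕ) : IsBC l q unitFn159 unitFn159 := by
  intro x y _ _
  unfold unitFn159
  rw [Finsupp.sum_single_index (by simp), Finsupp.sum_single_index (by simp)]
  simp [satake, satPoly]

theorem entryMax_ne_zero159 (g : GL (Fin 2) k) : entryMax g ≠ 0 := by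
  intro h0
  have hz : ∀ i j : Fin 2, (g : Matrix (Fin 2) (Fin 2) k) i j = 0 := by
    intro i j
    have := H687.v_entry_le_entryMax_h687 g i j
    rw [h0] at this
    exact (Valuation.zero_iff _).1 (le_antisymm this zero_le)
  have hdet : (g : Matrix (Fin 2) (Fin 2) k).det = 0 := by
    rw [Matrix.det_fin_two, hz 0 0, hz 0 1]
    ring
  have hunit : IsUnit (g : Matrix (Fin 2) (Fin 2) k).det :=
    (Matrix.isUnit_iff_isUnit_det _).1 (Units.isUnit g)
  rw [hdet] at hunit
  exact not_isUnit_zero hunit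

theorem inU_of_cartan159 (g : GL (Fin 2) k) (h : cartan g = (0, 0)) : InU 0 g := by
  unfold cartan at h
  have h2 : WithZero.log (entryMax g) = 0 := by
    have := congrArg Prod.snd h
    simpa using this
  have h1 : WithZero.log (Valued.v (g : Matrix (Fin 2) (Fin 2) k).det) = 0 := by
    have := congrArg Prod.fst h
    simp only [h2, zero_sub, neg_eq_zero] at this
    exact this
  have hE : entryMax g = 1 := by
    have := WithZero.exp_log (entryMax_ne_zero159 g)
    rw [h2, WithZero.exp_zero] at this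
    exact this.symm
  have hdet0 : Valued.v (g : Matrix (Fin 2) (Fin 2) k).det ≠ 0 := by
    rw [Valuation.ne_zero_iff]
    exact ((Matrix.isUnit_iff_isUnit_det _).1 (Units.isUnit g)).ne_zero
  have hD : Valued.v (g : Matrix (Fin 2) (Fin 2) k).det = 1 := by
    have := WithZero.exp_log hdet0
    rw [h1, WithZero.exp_zero] at this
    exact this.symm
  refine inU_zero_of_det159 g (fun i j => ?_) hD
  rw [← hE]
  exact H687.v_entry_le_entryMax_h687 g i j

theorem cartan_of_inU159 (g : GL (Fin 2) k) (h : InU 0 g) : cartan g = (0, 0) := by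
  have h1 : cartan (g * 1 * 1) = cartan (1 : GL (Fin 2) k) :=
    H687.cartan_mul_mul_h687 1 h (inU_zero_of_det159 1
      (fun i j => H687.v_one_apply_le_one_h687 i j) (by simp))
  rw [mul_one, mul_one] at h1
  rw [h1]
  have hE : entryMax (1 : GL (Fin 2) k) = 1 := by
    unfold entryMax
    apply le_antisymm
    · refine Finset.sup'_le _ _ fun p _ => ?_
      exact H687.v_one_apply_le_one_h687 p.1 p.2
    · refine le_trans ?_ (Finset.le_sup' _ (Finset.mem_univ ((0 : Fin 2), (0 : Fin 2))))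
      simp
  unfold cartan
  rw [hE]
  simp

/-- The unit as a function on `GL₂(k)`: the characteristic function of `GL₂(𝒪)`. -/
theorem unitFn_apply159 (g : GL (Fin 2) k) [Decidable (InU 0 g)] :
    unitFn159 (cartan g) = if InU 0 g then 1 else 0 := by
  unfold unitFn159
  split_ifs with h
  · rw [cartan_of_inU159 g h, Finsupp.single_eq_same]
  · rw [Finsupp.single_apply, if_neg]
    intro hc
    exact h (inU_of_cartan159 g hc.symm)

theorem inU_of_unitFn_ne159 (g : GL (Fin 2) k) (h : unitFn159 (cartan g) ≠ 0) : InU 0 g := by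
  apply inU_of_cartan159
  by_contra hne
  apply h
  unfold unitFn159
  rw [Finsupp.single_apply, if_neg]
  exact fun hc => hne hc.symm

theorem unitFn_of_inU159 (g : GL (Fin 2) k) (h : InU 0 g) : unitFn159 (cartan g) = 1 := by
  rw [cartan_of_inU159 g h]
  unfold unitFn159
  rw [Finsupp.single_eq_same]

theorem isBiInv_unit159 :
    IsBiInv (InU 0) (fun g : GL (Fin 2) k => unitFn159 (cartan g)) := by
  intro u u' g hu hu'
  show unitFn159 (cartan (u * g * u')) = unitFn159 (cartan g)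
  rw [H687.cartan_mul_mul_h687 g hu hu']

theorem hasFinSupp_unit159 :
    HasFinSupp (InU 0) (fun g : GL (Fin 2) k => unitFn159 (cartan g)) := by
  refine ⟨{1}, fun g hg => ⟨1, by simp, g, inU_of_unitFn_ne159 g hg, by simp⟩⟩

/-- **The orbital integral of the unit at a good unit is `1`** (the orbit sum exists). -/
theorem isOrbSum_unit159 (γ : GL (Fin 2) k) (hγ : InU 0 γ) (hd : Valued.v (disc γ) = 1) :
    IsOrbSum 0 (fun g : GL (Fin 2) k => unitFn159 (cartan g)) γ 1 := by
  refine ⟨{γ}, ?_, ?_, ?_, ?_⟩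
  · intro y hy
    rw [Finset.mem_singleton] at hy
    exact ⟨1, by rw [hy, map_one]; group⟩
  · intro y hy y' hy' _
    rw [Finset.mem_singleton] at hy hy'
    rw [hy, hy']
  · rintro y ⟨x, rfl⟩ hne
    rw [glAut_refl159] at hne ⊢
    obtain ⟨t, u, htγ, hu, rfl⟩ := goodUnit_down159 γ x hγ hd (inU_of_unitFn_ne159 _ hne)
    refine ⟨γ, Finset.mem_singleton_self _, u, hu, ?_⟩
    rw [glAut_refl159]
    calc (t * u)⁻¹ * γ * (t * u) = u⁻¹ * (t⁻¹ * (γ * t)) * u := by group
      _ = u⁻¹ * (t⁻¹ * (t * γ)) * u := by rw [htγ]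
      _ = u⁻¹ * γ * u := by group
  · rw [Finset.sum_singleton, cIndex_goodUnit159 γ hγ hd]
    show (1 : ℂ) = unitFn159 (cartan γ) * ((1 : ℕ) : ℂ)
    rw [unitFn_of_inU159 γ hγ]
    simp

end Tw

/-! ## 3. The companion matrix -/

section Comp

variable {k : Type} [Field k]

/-- The companion matrix of `X² - τ X + Δ` as an element of `GL₂(k)`. -/
def compGL159 (τ Δ : k) (hΔ : Δ ≠ 0) : GL (Fin 2) k :=
  Matrix.GeneralLinearGroup.mkOfDetNeZero !![0, -Δ; 1, τ] (by
    rw [Matrix.det_fin_two_of]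
    simpa using hΔ)

theorem compGL_coe159 (τ Δ : k) (hΔ : Δ ≠ 0) :
    (compGL159 τ Δ hΔ : Matrix (Fin 2) (Fin 2) k) = !![0, -Δ; 1, τ] := rfl

theorem det_ne_zero159 (γ : GL (Fin 2) k) : (γ : Matrix (Fin 2) (Fin 2) k).det ≠ 0 :=
  ((Matrix.isUnit_iff_isUnit_det _).1 (Units.isUnit γ)).ne_zero

/-- A cyclic vector over a field: `γ` with non-zero discriminant. -/
theorem exists_cyclic_field159 (γ : GL (Fin 2) k) (hd : disc γ ≠ 0) :
    ∃ w : Fin 2 → k, (colMat159 (γ : Matrix (Fin 2) (Fin 2) k) w).det ≠ 0 := by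
  by_cases h1 : (γ : Matrix (Fin 2) (Fin 2) k) 1 0 = 0
  · by_cases h2 : (γ : Matrix (Fin 2) (Fin 2) k) 0 1 = 0
    · refine ⟨![1, 1], ?_⟩
      rw [det_colMat159]
      intro h0
      apply hd
      rw [disc_eq159, h1, h2]
      simp only [Matrix.cons_val_zero, Matrix.cons_val_one, h1, h2] at h0
      have : (γ : Matrix (Fin 2) (Fin 2) k) 0 0 - (γ : Matrix (Fin 2) (Fin 2) k) 1 1 = 0 := by
        linear_combination -h0
      rw [this]
      ring
    · refine ⟨![0, 1], ?_⟩
      rw [det_colMat159]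
      simpa using h2
  · refine ⟨![1, 0], ?_⟩
    rw [det_colMat159]
    simpa using h1

/-- A regular element is conjugate to the companion matrix of its characteristic polynomial. -/
theorem isConj_comp159 (γ : GL (Fin 2) k) (hd : disc γ ≠ 0) :
    IsConj γ (compGL159 (γ : Matrix (Fin 2) (Fin 2) k).trace (γ : Matrix (Fin 2) (Fin 2) k).det
      (det_ne_zero159 γ)) := by
  obtain ⟨w, hw⟩ := exists_cyclic_field159 γ hd
  set P : GL (Fin 2) k := Matrix.GeneralLinearGroup.mkOfDetNeZero _ hw with hP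
  rw [isConj_iff]
  refine ⟨P⁻¹, ?_⟩
  have h : γ * P = P * compGL159 (γ : Matrix (Fin 2) (Fin 2) k).trace
      (γ : Matrix (Fin 2) (Fin 2) k).det (det_ne_zero159 γ) := by
    apply Units.ext
    rw [Units.val_mul, Units.val_mul]
    exact mul_colMat159 _ w
  rw [inv_inv, mul_assoc, h]
  group

theorem trace_isConj159 {a b : GL (Fin 2) k} (h : IsConj a b) :
    (b : Matrix (Fin 2) (Fin 2) k).trace = (a : Matrix (Fin 2) (Fin 2) k).trace := by
  obtain ⟨c, rfl⟩ := isConj_iff.1 h
  rw [Units.val_mul, Units.val_mul, Matrix.trace_mul_comm, ← mul_assoc, ← Units.val_mul,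
    inv_mul_cancel, Units.val_one, one_mul]

theorem det_isConj159 {a b : GL (Fin 2) k} (h : IsConj a b) :
    (b : Matrix (Fin 2) (Fin 2) k).det = (a : Matrix (Fin 2) (Fin 2) k).det := by
  obtain ⟨c, rfl⟩ := isConj_iff.1 h
  rw [Units.val_mul, Units.val_mul, Matrix.det_mul, Matrix.det_mul, mul_comm, ← mul_assoc,
    ← Matrix.det_mul, ← Units.val_mul, inv_mul_cancel, Units.val_one, Matrix.det_one, one_mul]

theorem disc_isConj159 {a b : GL (Fin 2) k} (h : IsConj a b) : disc b = disc a := by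
  simp only [disc, trace_isConj159 h, det_isConj159 h]

theorem trace_map159 {k' : Type} [Field k'] (i : k →+* k') (γ : GL (Fin 2) k) :
    ((Matrix.GeneralLinearGroup.map i γ : GL (Fin 2) k') : Matrix (Fin 2) (Fin 2) k').trace
      = i (γ : Matrix (Fin 2) (Fin 2) k).trace := by
  simp [Matrix.trace_fin_two, Matrix.GeneralLinearGroup.map]

theorem det_map159 {k' : Type} [Field k'] (i : k →+* k') (γ : GL (Fin 2) k) :
    ((Matrix.GeneralLinearGroup.map i γ : GL (Fin 2) k') : Matrix (Fin 2) (Fin 2) k').det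
      = i (γ : Matrix (Fin 2) (Fin 2) k).det := by
  simp [Matrix.det_fin_two, Matrix.GeneralLinearGroup.map]

theorem disc_map159 {k' : Type} [Field k'] (i : k →+* k') (γ : GL (Fin 2) k) :
    disc (Matrix.GeneralLinearGroup.map i γ) = i (disc γ) := by
  simp only [disc, trace_map159, det_map159, map_sub, map_pow, map_mul, map_ofNat]

end Comp

/-! ## 4. The twisted orbit sum of the unit at a good unit; the support -/

section Up

variable {k k' : Type} [Field k] [Field k'] [Valued k Γ₀] [Valued k' Γ₀]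

/-- The companion matrix downstairs of the norm of a twisted good unit: a good unit of `GL₂(k)`
whose image is conjugate to `N δ`. -/
theorem exists_goodUnit_norm159 (hNC : NormClassC) (l : ℕ) (i : k →+* k') (s : k' ≃+* k')
    (hext : IsLocalExt k k' l 1 i s) (δ : GL (Fin 2) k') (hδ : InU 0 δ)
    (hd : Valued.v (disc (twNorm s l δ)) = 1) :
    ∃ γ : GL (Fin 2) k, InU 0 γ ∧ Valued.v (disc γ) = 1 ∧
      IsConj (twNorm s l δ) (Matrix.GeneralLinearGroup.map i γ) := by
  obtain ⟨γ₁, hγ₁⟩ := hNC k k' l i s hext.cyc δ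
  have hvi : ∀ x : k, Valued.v (i x) = Valued.v x := fun x => by
    rw [hext.val_i, pow_one]
  have hN : InU 0 (twNorm s l δ) := inU_twNorm159 s hext.val_s l δ hδ
  have hdisc1 : Valued.v (disc γ₁) = 1 := by
    rw [← hvi, ← disc_map159, disc_isConj159 hγ₁, hd]
  have hdne : disc γ₁ ≠ 0 := by
    intro h0
    rw [h0, Valuation.map_zero] at hdisc1
    exact zero_ne_one hdisc1
  have htr : Valued.v (γ₁ : Matrix (Fin 2) (Fin 2) k).trace ≤ 1 := by
    rw [← hvi, ← trace_map159, trace_isConj159 hγ₁, Matrix.trace_fin_two]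
    exact (Valuation.map_add _ _ _).trans
      (max_le (H687.entry_le_one_of_inU_h687 hN 0 0) (H687.entry_le_one_of_inU_h687 hN 1 1))
  have hdet : Valued.v (γ₁ : Matrix (Fin 2) (Fin 2) k).det = 1 := by
    rw [← hvi, ← det_map159, det_isConj159 hγ₁]
    exact H687.v_det_eq_one_of_inU_h687 hN
  have hconj := isConj_comp159 γ₁ hdne
  set γc := compGL159 (γ₁ : Matrix (Fin 2) (Fin 2) k).trace (γ₁ : Matrix (Fin 2) (Fin 2) k).det
    (det_ne_zero159 γ₁) with hγc
  refine ⟨γc, ?_, ?_, ?_⟩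
  · refine inU_zero_of_det159 γc ?_ ?_
    · intro a b
      rw [hγc, compGL_coe159]
      fin_cases a <;> fin_cases b
      · simp
      · simpa using le_of_eq hdet
      · simp
      · simpa using htr
    · rw [det_isConj159 hconj]
      exact hdet
  · rw [disc_isConj159 hconj]
    exact hdisc1
  · exact hγ₁.trans (MonoidHom.map_isConj _ hconj)

/-- **The twisted orbit sum of the unit at a twisted good unit is `1`.** -/
theorem unitOrb_up159 (hFL : FundLemmaC) (hNC : NormClassC) (q l : ℕ) (i : k →+* k')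
    (s : k' ≃+* k') (hk : IsLocalField k q) (hk' : IsLocalField k' (q ^ l))
    (hext : IsLocalExt k k' l 1 i s) (hl : l.Prime) (δ : GL (Fin 2) k') (hδ : InU 0 δ)
    (hd : Valued.v (disc (twNorm s l δ)) = 1) (c : ℂ)
    (hc : IsTwOrbSum s 0 (fun g : GL (Fin 2) k' => unitFn159 (cartan g)) δ c) : c = 1 := by
  obtain ⟨γ, hγ, hdγ, hconj⟩ := exists_goodUnit_norm159 hNC l i s hext δ hδ hd
  have hreg : IsReg γ := by
    unfold IsReg
    rw [isUnit_iff_ne_zero]
    intro h0
    rw [h0, Valuation.map_zero] at hdγ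
    exact zero_ne_one hdγ
  exact hFL.1 k k' q l i s hk hk' hext hl unitFn159 unitFn159 isDominant_unitFn159
    isDominant_unitFn159 (isBC_unitFn159 l q) δ γ c 1 hreg trivial hconj hc
    (isOrbSum_unit159 γ hγ hdγ)

/-- **GOOD UNIT, twisted support form.**  `δ ∈ GL₂(𝒪')` with `disc (N δ)` a unit,
`x⁻¹ δ s(x) ∈ GL₂(𝒪')`: then `x = t u` with `t` in the twisted centraliser of `δ` and
`u ∈ GL₂(𝒪')`. -/
theorem goodUnit_up159 (hFL : FundLemmaC) (hEx : OrbSumExC) (hNC : NormClassC) (q l : ℕ)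
    (i : k →+* k') (s : k' ≃+* k') (hk : IsLocalField k q) (hk' : IsLocalField k' (q ^ l))
    (hext : IsLocalExt k k' l 1 i s) (hl : l.Prime) (δ : GL (Fin 2) k') (hδ : InU 0 δ)
    (hd : Valued.v (disc (twNorm s l δ)) = 1) (x : GL (Fin 2) k')
    (hx : InU 0 (x⁻¹ * δ * glAut s x)) :
    ∃ t u : GL (Fin 2) k', InTwCent s δ t ∧ InU 0 u ∧ x = t * u := by
  classical
  have hord : ∀ y : k', (s ^ l) y = y := hext.cyc.order
  have hregN : IsReg (twNorm s l δ) := by
    unfold IsReg
    rw [isUnit_iff_ne_zero]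
    intro h0
    rw [h0, Valuation.map_zero] at hd
    exact zero_ne_one hd
  have hk'' : IsLocalField k' (q ^ (l / 1)) := by rwa [Nat.div_one]
  obtain ⟨c, hc⟩ := hEx k k' q l 1 i s hk hk'' hext 0 _ (isBiInv_unit159 (k := k'))
    hasFinSupp_unit159 δ hregN
  have hc1 : c = 1 := unitOrb_up159 hFL hNC q l i s hk hk' hext hl δ hδ hd c hc
  obtain ⟨R, hR1, hR2, hR3, hsum⟩ := hc
  -- the terms of the sum
  have hterm : ∀ y ∈ R, unitFn159 (cartan y) * (cIndex (InU 0) (InTwCentC s) y : ℂ)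
      = if unitFn159 (cartan y) ≠ 0 then 1 else 0 := by
    intro y hy
    by_cases h0 : unitFn159 (cartan y) = 0
    · rw [if_neg (not_not.2 h0), h0, zero_mul]
    · have hyU : InU 0 y := inU_of_unitFn_ne159 y h0
      obtain ⟨z, rfl⟩ := hR1 y hy
      have hdy : Valued.v (disc (twNorm s l (z⁻¹ * δ * glAut s z))) = 1 := by
        rw [H848.twNorm_twConj848 s hord, disc_conj159, hd]
      rw [if_pos h0, cIndex_goodUnit_tw159 s hext.val_s hord _ hyU hdy, unitFn_of_inU159 _ hyU]
      simp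
  have hcard : (R.filter fun y => unitFn159 (cartan y) ≠ 0).card = 1 := by
    have h1 : (1 : ℂ) = ((R.filter fun y => unitFn159 (cartan y) ≠ 0).card : ℂ) := by
      rw [← hc1, hsum, Finset.sum_congr rfl hterm, Finset.sum_ite, Finset.sum_const_zero,
        add_zero, Finset.sum_const, nsmul_eq_mul, mul_one]
    exact_mod_cast h1.symm
  obtain ⟨a, ha⟩ := Finset.card_eq_one.1 hcard
  -- the class of `δ`
  have hφδ : unitFn159 (cartan δ) ≠ 0 := by
    rw [unitFn_of_inU159 δ hδ]
    exact one_ne_zero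
  obtain ⟨y₀, hy₀, u₀, hu₀, hδy⟩ := hR3 δ ⟨1, by rw [map_one]; group⟩ hφδ
  have hφx : unitFn159 (cartan (x⁻¹ * δ * glAut s x)) ≠ 0 := by
    rw [unitFn_of_inU159 _ hx]
    exact one_ne_zero
  obtain ⟨y₁, hy₁, u₁, hu₁, hxy⟩ := hR3 _ ⟨x, rfl⟩ hφx
  have hsu : ∀ u : GL (Fin 2) k', InU 0 u → InU 0 (glAut s u) := fun u hu =>
    H944.inU_glAut944 s hext.val_s 0 u hu
  have hy₀U : unitFn159 (cartan y₀) ≠ 0 := by
    have e : y₀ = u₀ * δ * (glAut s u₀)⁻¹ := by
      rw [hδy]
      group
    rw [e, unitFn_of_inU159]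
    · exact one_ne_zero
    · exact H944.inU_mul944 0 _ _ (H944.inU_mul944 0 _ _ hu₀ hδ)
        (H944.inU_inv944 0 _ (hsu u₀ hu₀))
  have hy₁U : unitFn159 (cartan y₁) ≠ 0 := by
    have e : y₁ = u₁ * (x⁻¹ * δ * glAut s x) * (glAut s u₁)⁻¹ := by
      rw [hxy]
      group
    rw [e, unitFn_of_inU159]
    · exact one_ne_zero
    · exact H944.inU_mul944 0 _ _ (H944.inU_mul944 0 _ _ hu₁ hx)
        (H944.inU_inv944 0 _ (hsu u₁ hu₁))
  have hm₀ : y₀ ∈ R.filter fun y => unitFn159 (cartan y) ≠ 0 :=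
    Finset.mem_filter.2 ⟨hy₀, hy₀U⟩
  have hm₁ : y₁ ∈ R.filter fun y => unitFn159 (cartan y) ≠ 0 :=
    Finset.mem_filter.2 ⟨hy₁, hy₁U⟩
  rw [ha, Finset.mem_singleton] at hm₀ hm₁
  have hy01 : y₁ = y₀ := hm₁.trans hm₀.symm
  -- the element of the twisted centraliser
  have hy₀e : y₀ = u₀ * δ * (glAut s u₀)⁻¹ := by
    rw [hδy]
    group
  refine ⟨x * (u₀⁻¹ * u₁)⁻¹, u₀⁻¹ * u₁, ?_,
    H944.inU_mul944 0 _ _ (H944.inU_inv944 0 _ hu₀) hu₁, by group⟩
  unfold InTwCent
  have e1 : x⁻¹ * δ * glAut s x = (u₀⁻¹ * u₁)⁻¹ * δ * glAut s (u₀⁻¹ * u₁) := by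
    rw [hxy, hy01, hy₀e]
    simp only [map_mul, map_inv]
    group
  calc (x * (u₀⁻¹ * u₁)⁻¹)⁻¹ * δ * glAut s (x * (u₀⁻¹ * u₁)⁻¹)
      = (u₀⁻¹ * u₁) * (x⁻¹ * δ * glAut s x) * (glAut s (u₀⁻¹ * u₁))⁻¹ := by
        simp only [map_mul, map_inv]
        group
    _ = δ := by
        rw [e1]
        group

end Up

end Fermat.Agent.LT.T7.H159

end
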