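import Mathlib
import Fermat.Agent.LT.T6.Spec

/-!
# Row LT, tower T7, asset for the field `matched` (helper159), OFF-MAIN

**THE SPLIT PLACE, INTEGRAL FORM, GENERAL `l`** (the general form of `T6.SplitInt2C`,
`T6.SplitInt3C`; any measurable group with a left invariant measure, NO hypothesis on the
functions: every step is ONE change of variables).

`Φ 0, Φ 1, …` functions on `H`, `δ 0, δ 1, …` elements of `H`.

* left nested: `convL159 μ Φ n = (⋯(Φ 0 * Φ 1) * ⋯) * Φ n` (`T6.convInt`),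
  `iterL159 μ Φ δ 0 a b = Φ 0 (a⁻¹ δ_0 b)`,
  `iterL159 μ Φ δ (n+1) a b = ∫ iterL159 μ Φ δ n a x · Φ (n+1) (x⁻¹ δ_{n+1} b) dμ(x)`;
  `iterL_eq159 : iterL159 μ Φ δ n a b = convL159 μ Φ n (a⁻¹ (δ_0 ⋯ δ_n) b)`;
* right nested: `convR159 μ Φ n j = Φ j * (Φ (j+1) * ⋯ * Φ (j+n))`,
  `iterR159 μ Φ δ 0 j a b = Φ j (a⁻¹ δ_j b)`,
  `iterR159 μ Φ δ (n+1) j a b = ∫ Φ j (a⁻¹ δ_j x) · iterR159 μ Φ δ n (j+1) x b dμ(x)`;
  `iterR_eq159 : iterR159 μ Φ δ n j a b = convR159 μ Φ n j (a⁻¹ (δ_j ⋯ δ_{j+n}) b)`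
  (`n = 1`: `T6.SplitInt2C`, `n = 2`: `T6.SplitInt3C`, with `a = b = x₀`).

With `a = b = x₀` the left side is the inner integral of the twisted orbital integral of the
pure tensor `Φ 0 ⊗ ⋯ ⊗ Φ n` on `H^{n+1}` (cyclic shift) at `(δ_0, …, δ_n)`, the right side the
integrand of the orbital integral of the convolution at the norm `δ_0 ⋯ δ_n`.
-/

set_option autoImplicit false

open MeasureTheory

noncomputable section

namespace Fermat.Agent.LT.T7.H159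

open Fermat.Agent.LT.T6

variable {H : Type} [Group H] [MeasurableSpace H] [MeasurableMul H]

/-- The product `δ_j δ_{j+1} ⋯ δ_{j+n-1}`. -/
def prodFrom159 (δ : ℕ → H) : ℕ → ℕ → H
  | 0, _ => 1
  | (n + 1), j => δ j * prodFrom159 δ n (j + 1)

omit [MeasurableSpace H] [MeasurableMul H] in
theorem prodFrom_succ_right159 (δ : ℕ → H) (n j : ℕ) :
    prodFrom159 δ (n + 1) j = prodFrom159 δ n j * δ (j + n) := by
  induction n generalizing j with
  | zero => simp [prodFrom159]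
  | succ n ih =>
    have h1 : prodFrom159 δ (n + 1 + 1) j = δ j * prodFrom159 δ (n + 1) (j + 1) := rfl
    have h2 : prodFrom159 δ (n + 1) j = δ j * prodFrom159 δ n (j + 1) := rfl
    rw [h1, ih (j + 1), h2, mul_assoc]
    congr 2
    ring_nf

/-- Left nested convolution `(⋯(Φ 0 * Φ 1) * ⋯) * Φ n`. -/
def convL159 (μ : Measure H) (Φ : ℕ → H → ℂ) : ℕ → H → ℂ
  | 0 => Φ 0
  | (n + 1) => convInt μ (convL159 μ Φ n) (Φ (n + 1))

/-- The iterated integral, left nested. -/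
def iterL159 (μ : Measure H) (Φ : ℕ → H → ℂ) (δ : ℕ → H) : ℕ → H → H → ℂ
  | 0 => fun a b => Φ 0 (a⁻¹ * δ 0 * b)
  | (n + 1) => fun a b => ∫ x, iterL159 μ Φ δ n a x * Φ (n + 1) (x⁻¹ * δ (n + 1) * b) ∂μ

/-- **The split place, general `l`, left nested.** -/
theorem iterL_eq159 (μ : Measure H) [μ.IsMulLeftInvariant] (Φ : ℕ → H → ℂ) (δ : ℕ → H) (n : ℕ)
    (a b : H) :
    iterL159 μ Φ δ n a b = convL159 μ Φ n (a⁻¹ * prodFrom159 δ (n + 1) 0 * b) := by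
  induction n generalizing a b with
  | zero => simp [iterL159, convL159, prodFrom159]
  | succ n ih =>
    show ∫ x, iterL159 μ Φ δ n a x * Φ (n + 1) (x⁻¹ * δ (n + 1) * b) ∂μ
      = convInt μ (convL159 μ Φ n) (Φ (n + 1)) (a⁻¹ * prodFrom159 δ (n + 1 + 1) 0 * b)
    simp only [ih]
    unfold convInt
    have hP : prodFrom159 δ (n + 1 + 1) 0 = prodFrom159 δ (n + 1) 0 * δ (n + 1) := by
      rw [prodFrom_succ_right159]
      simp
    set p := prodFrom159 δ (n + 1) 0 with hp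
    -- change of variables `x = p⁻¹ a h`
    have h := integral_mul_left_eq_self (μ := μ)
      (fun x => convL159 μ Φ n (a⁻¹ * p * x) * Φ (n + 1) (x⁻¹ * δ (n + 1) * b)) (p⁻¹ * a)
    rw [← h]
    refine integral_congr_ae (ae_of_all _ fun h' => ?_)
    show convL159 μ Φ n (a⁻¹ * p * (p⁻¹ * a * h'))
        * Φ (n + 1) ((p⁻¹ * a * h')⁻¹ * δ (n + 1) * b)
      = convL159 μ Φ n h' * Φ (n + 1) (h'⁻¹ * (a⁻¹ * prodFrom159 δ (n + 1 + 1) 0 * b))
    rw [hP]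
    congr 2 <;> group

/-- Right nested convolution `Φ j * (Φ (j+1) * ⋯ * Φ (j+n))`. -/
def convR159 (μ : Measure H) (Φ : ℕ → H → ℂ) : ℕ → ℕ → H → ℂ
  | 0, j => Φ j
  | (n + 1), j => convInt μ (Φ j) (convR159 μ Φ n (j + 1))

/-- The iterated integral, right nested. -/
def iterR159 (μ : Measure H) (Φ : ℕ → H → ℂ) (δ : ℕ → H) : ℕ → ℕ → H → H → ℂ
  | 0, j => fun a b => Φ j (a⁻¹ * δ j * b)
  | (n + 1), j => fun a b => ∫ x, Φ j (a⁻¹ * δ j * x) * iterR159 μ Φ δ n (j + 1) x b ∂μ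

/-- **The split place, general `l`, right nested.** -/
theorem iterR_eq159 (μ : Measure H) [μ.IsMulLeftInvariant] (Φ : ℕ → H → ℂ) (δ : ℕ → H) (n j : ℕ)
    (a b : H) :
    iterR159 μ Φ δ n j a b = convR159 μ Φ n j (a⁻¹ * prodFrom159 δ (n + 1) j * b) := by
  induction n generalizing j a b with
  | zero => simp [iterR159, convR159, prodFrom159]
  | succ n ih =>
    show ∫ x, Φ j (a⁻¹ * δ j * x) * iterR159 μ Φ δ n (j + 1) x b ∂μ
      = convInt μ (Φ j) (convR159 μ Φ n (j + 1)) (a⁻¹ * prodFrom159 δ (n + 1 + 1) j * b)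
    simp only [ih]
    unfold convInt
    have hP : prodFrom159 δ (n + 1 + 1) j = δ j * prodFrom159 δ (n + 1) (j + 1) := rfl
    set p := prodFrom159 δ (n + 1) (j + 1) with hp
    have h := integral_mul_left_eq_self (μ := μ)
      (fun x => Φ j (a⁻¹ * δ j * x) * convR159 μ Φ n (j + 1) (x⁻¹ * p * b)) ((δ j)⁻¹ * a)
    rw [← h]
    refine integral_congr_ae (ae_of_all _ fun h' => ?_)
    show Φ j (a⁻¹ * δ j * ((δ j)⁻¹ * a * h'))
        * convR159 μ Φ n (j + 1) (((δ j)⁻¹ * a * h')⁻¹ * p * b)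
      = Φ j h' * convR159 μ Φ n (j + 1) (h'⁻¹ * (a⁻¹ * prodFrom159 δ (n + 1 + 1) j * b))
    rw [hP]
    congr 2 <;> group

/-- `T6.SplitInt2C` is the case `n = 1` of `iterR_eq159` (check of the shape). -/
theorem splitInt2_of159 (μ : Measure H) [μ.IsMulLeftInvariant] (φ₀ φ₁ : H → ℂ)
    (δ₀ δ₁ x₀ : H) :
    ∫ x₁, φ₀ (x₀⁻¹ * δ₀ * x₁) * φ₁ (x₁⁻¹ * δ₁ * x₀) ∂μ
      = convInt μ φ₀ φ₁ (x₀⁻¹ * (δ₀ * δ₁) * x₀) := by
  have h := iterR_eq159 μ (fun n => if n = 0 then φ₀ else φ₁) (fun n => if n = 0 then δ₀ else δ₁)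
    1 0 x₀ x₀
  simpa [iterR159, convR159, prodFrom159] using h

end Fermat.Agent.LT.T7.H159

end
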