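import Mathlib
import Fermat.Agent.LT.T6.Spec
import Fermat.Agent.LT.T6.H848.NormInj
import Fermat.Agent.LT.T7.H159.GoodUnit

/-!
# Row LT, tower T7, asset for the field `matched` of `SupplyC` / `FamC` (helper159), OFF-MAIN

**GOOD UNITS, SPLIT PLACE.**  On `GL₂(k)^l` with the cyclic shift (`T6.shiftHom l`, the
vocabulary of `T6.SplitMatchC` / `T6.IsSplitOrbSum`): `δ = (δ_j)` with `δ_j ∈ GL₂(𝒪)` and
`disc (δ_0 δ_1 ⋯ δ_{l-1}) ∈ 𝒪^×`.

* `goodUnit_split159`: if every component of `x⁻¹ δ s(x)` lies in `GL₂(𝒪)` then `x = t u` with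
  `t` in the twisted centraliser of `δ` and every `u_j ∈ GL₂(𝒪)`;
* `splitCent_compact159`: the maximal compact subgroup of the twisted centraliser of such a
  `δ` (the predicate of `T6.IsSplitOrbSum`) lies in `GL₂(𝒪)^l`.

Elementary (from `goodUnit_down159`, `cent_compact159` at the norm).
-/

set_option autoImplicit false

open scoped Matrix

noncomputable section

namespace Fermat.Agent.LT.T7.H159

open Fermat.Agent.LT.T6

section Split

variable {k : Type} [Field k] [Valued k Γ₀] {l : ℕ} [NeZero l]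

/-- The `n`-th successor in `Fin l` (cyclic). -/
def succN159 (n : ℕ) (j : Fin l) : Fin l := ((fun i : Fin l => i + 1)^[n]) j

theorem succN_val159 (n : ℕ) (j : Fin l) : (succN159 n j).val = (j.val + n) % l := by
  unfold succN159
  induction n with
  | zero => simp [Nat.mod_eq_of_lt j.isLt]
  | succ n ih =>
    rw [Function.iterate_succ_apply', Fin.val_add, ih]
    have h1 : ((1 : Fin l).val) = 1 % l := Fin.val_one' l
    rw [h1, ← Nat.add_mod, add_assoc]

theorem succN_self159 (j : Fin l) : succN159 l j = j := by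
  apply Fin.ext
  rw [succN_val159]
  simp [Nat.mod_eq_of_lt j.isLt]

theorem succN_zero159 (j : Fin l) : succN159 j.val 0 = j := by
  apply Fin.ext
  rw [succN_val159]
  simp [Nat.mod_eq_of_lt j.isLt]

theorem succN_succ159 (n : ℕ) (j : Fin l) : succN159 (n + 1) j = succN159 n j + 1 := by
  unfold succN159
  rw [Function.iterate_succ_apply']

omit [Valued k Γ₀] in
theorem shift_iterate_apply159 (n : ℕ) (x : Fin l → GL (Fin 2) k) (j : Fin l) :
    ((shiftHom (k := k) l)^[n] x) j = x (succN159 n j) := by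
  induction n generalizing j with
  | zero => rfl
  | succ n ih =>
    rw [Function.iterate_succ_apply', succN_succ159]
    show ((shiftHom (k := k) l)^[n] x) (j + 1) = _
    rw [ih]
    congr 1
    unfold succN159
    rw [← Function.iterate_succ_apply, Function.iterate_succ_apply']

omit [Valued k Γ₀] in
theorem shift_iterate_self159 (x : Fin l → GL (Fin 2) k) :
    ((shiftHom (k := k) l)^[l] x) = x := by
  funext j
  rw [shift_iterate_apply159, succN_self159]

omit [Valued k Γ₀] in
/-- `N_n(x⁻¹ δ s(x))_j = x_j⁻¹ (N_n δ)_j x_{j+n}`. -/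
theorem twN_conj_split159 (n : ℕ) (x δ : Fin l → GL (Fin 2) k) (j : Fin l) :
    twN (shiftHom (k := k) l) n (x⁻¹ * δ * shiftHom l x) j
      = (x j)⁻¹ * twN (shiftHom (k := k) l) n δ j * x (succN159 n j) := by
  rw [H848.twN_twConj848]
  show (x j)⁻¹ * twN (shiftHom (k := k) l) n δ j * ((shiftHom (k := k) l)^[n] x) j = _
  rw [shift_iterate_apply159]

omit [Valued k Γ₀] in
/-- `(N_{n+1} δ)_j = (N_n δ)_j δ_{j+n}`. -/
theorem twN_succ_split159 (n : ℕ) (δ : Fin l → GL (Fin 2) k) (j : Fin l) :
    twN (shiftHom (k := k) l) (n + 1) δ j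
      = twN (shiftHom (k := k) l) n δ j * δ (succN159 n j) := by
  rw [H848.twN_succ_right848]
  show twN (shiftHom (k := k) l) n δ j * ((shiftHom (k := k) l)^[n] δ) j = _
  rw [shift_iterate_apply159]

/-- The components of the twisted norms of an element of `GL₂(𝒪)^l` lie in `GL₂(𝒪)`. -/
theorem inU_twN_split159 (y : Fin l → GL (Fin 2) k) (hy : ∀ j, InU 0 (y j)) (n : ℕ)
    (j : Fin l) : InU 0 (twN (shiftHom (k := k) l) n y j) := by
  induction n generalizing j with
  | zero =>
    show InU 0 (1 : GL (Fin 2) k)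
    exact inU_zero_of_det159 1 (fun i j => H687.v_one_apply_le_one_h687 i j) (by simp)
  | succ n ih =>
    show InU 0 (y j * twN (shiftHom (k := k) l) n y (j + 1))
    exact H944.inU_mul944 0 _ _ (hy j) (ih (j + 1))

/-- **GOOD UNIT, split place, support form.** -/
theorem goodUnit_split159 (δ x : Fin l → GL (Fin 2) k) (hδ : ∀ j, InU 0 (δ j))
    (hd : Valued.v (disc (twN (shiftHom (k := k) l) l δ 0)) = 1)
    (hx : ∀ j, InU 0 ((x⁻¹ * δ * shiftHom l x) j)) :
    ∃ t u : Fin l → GL (Fin 2) k, t⁻¹ * δ * shiftHom l t = δ ∧ (∀ j, InU 0 (u j)) ∧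
      x = t * u := by
  set y : Fin l → GL (Fin 2) k := x⁻¹ * δ * shiftHom l x with hy
  set P : ℕ → GL (Fin 2) k := fun n => twN (shiftHom (k := k) l) n δ 0 with hP
  set Y : ℕ → GL (Fin 2) k := fun n => twN (shiftHom (k := k) l) n y 0 with hY
  have hPU : ∀ n, InU 0 (P n) := fun n => inU_twN_split159 δ hδ n 0
  have hYU : ∀ n, InU 0 (Y n) := fun n => inU_twN_split159 y hx n 0
  -- `x` in terms of `x 0`
  have hxn : ∀ n : ℕ, x (succN159 n 0) = (P n)⁻¹ * x 0 * Y n := by
    intro n
    have h := twN_conj_split159 n x δ 0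
    show x (succN159 n 0) = (twN (shiftHom (k := k) l) n δ 0)⁻¹ * x 0
      * twN (shiftHom (k := k) l) n (x⁻¹ * δ * shiftHom l x) 0
    rw [h]
    group
  have hxj : ∀ j : Fin l, x j = (P j.val)⁻¹ * x 0 * Y j.val := by
    intro j
    have := hxn j.val
    rwa [succN_zero159] at this
  -- the good unit `N δ` at `x 0`
  have hN : InU 0 (P l) := hPU l
  have hconj : InU 0 ((x 0)⁻¹ * P l * x 0) := by
    have h := twN_conj_split159 l x δ 0
    rw [succN_self159] at h
    have := hYU l
    show InU 0 ((x 0)⁻¹ * twN (shiftHom (k := k) l) l δ 0 * x 0)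
    rw [← h]
    exact this
  obtain ⟨t₀, u₀, ht₀, hu₀, hx0⟩ := goodUnit_down159 (P l) (x 0) hN hd hconj
  -- the partial products
  have hPsucc : ∀ j : Fin l, P (j.val + 1) = P j.val * δ j := by
    intro j
    have := twN_succ_split159 j.val δ 0
    rwa [succN_zero159] at this
  refine ⟨fun j => (P j.val)⁻¹ * t₀ * P j.val, fun j => (P j.val)⁻¹ * u₀ * Y j.val, ?_, ?_, ?_⟩
  · funext j
    show ((P j.val)⁻¹ * t₀ * P j.val)⁻¹ * δ j
      * ((P (j + 1).val)⁻¹ * t₀ * P (j + 1).val) = δ j
    by_cases hj : j.val + 1 < l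
    · have hv : (j + 1).val = j.val + 1 := by
        rw [Fin.val_add, Fin.val_one' l, Nat.add_mod_mod, Nat.mod_eq_of_lt hj]
      rw [hv, hPsucc j]
      group
    · have hjl : j.val + 1 = l := by
        have := j.isLt
        omega
      have hv : (j + 1).val = 0 := by
        rw [Fin.val_add, Fin.val_one' l, Nat.add_mod_mod, hjl, Nat.mod_self]
      have hP0 : P 0 = 1 := rfl
      have hPl : P l = P j.val * δ j := by
        have := hPsucc j
        rwa [hjl] at this
      rw [hv, hP0]
      have e : t₀ * (P j.val * δ j) = (P j.val * δ j) * t₀ := by rw [← hPl, ht₀]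
      calc ((P j.val)⁻¹ * t₀ * P j.val)⁻¹ * δ j * ((1 : GL (Fin 2) k)⁻¹ * t₀ * 1)
          = (P j.val)⁻¹ * t₀⁻¹ * ((P j.val * δ j) * t₀) := by group
        _ = (P j.val)⁻¹ * t₀⁻¹ * (t₀ * (P j.val * δ j)) := by rw [e]
        _ = δ j := by group
  · intro j
    exact H944.inU_mul944 0 _ _ (H944.inU_mul944 0 _ _ (H944.inU_inv944 0 _ (hPU j.val)) hu₀)
      (hYU j.val)
  · funext j
    show x j = ((P j.val)⁻¹ * t₀ * P j.val) * ((P j.val)⁻¹ * u₀ * Y j.val)
    rw [hxj j, hx0]
    group

omit [Valued k Γ₀] in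
/-- The norms at the different starting points are conjugate: same discriminant. -/
theorem disc_twN_split159 (y : Fin l → GL (Fin 2) k) (j : Fin l) :
    disc (twN (shiftHom (k := k) l) l y j) = disc (twN (shiftHom (k := k) l) l y 0) := by
  have hstep : ∀ i : Fin l, disc (twN (shiftHom (k := k) l) l y (i + 1))
      = disc (twN (shiftHom (k := k) l) l y i) := by
    intro i
    have h1 : twN (shiftHom (k := k) l) (l + 1) y i
        = y i * twN (shiftHom (k := k) l) l y (i + 1) := rfl
    have h2 := twN_succ_split159 l y i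
    rw [succN_self159] at h2
    have h3 : twN (shiftHom (k := k) l) l y (i + 1)
        = (y i)⁻¹ * twN (shiftHom (k := k) l) l y i * y i := by
      have h4 : y i * twN (shiftHom (k := k) l) l y (i + 1)
          = twN (shiftHom (k := k) l) l y i * y i := h1.symm.trans h2
      calc twN (shiftHom (k := k) l) l y (i + 1)
          = (y i)⁻¹ * (y i * twN (shiftHom (k := k) l) l y (i + 1)) := by group
        _ = (y i)⁻¹ * twN (shiftHom (k := k) l) l y i * y i := by rw [h4]; group
    rw [h3, disc_conj159]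
  have hn : ∀ n : ℕ, disc (twN (shiftHom (k := k) l) l y (succN159 n 0))
      = disc (twN (shiftHom (k := k) l) l y 0) := by
    intro n
    induction n with
    | zero => rfl
    | succ n ih => rw [succN_succ159, hstep, ih]
  have := hn j.val
  rwa [succN_zero159] at this

/-- **The maximal compact subgroup of the twisted centraliser of a split good unit lies in
`GL₂(𝒪)^l`** (the predicate is the one of `T6.IsSplitOrbSum`). -/
theorem splitCent_compact159 (y t : Fin l → GL (Fin 2) k) (hy : ∀ j, InU 0 (y j))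
    (hd : Valued.v (disc (twN (shiftHom (k := k) l) l y 0)) = 1)
    (ht : t⁻¹ * y * shiftHom l t = y)
    (htc : ∀ j, Valued.v ((t j : GL (Fin 2) k) : Matrix (Fin 2) (Fin 2) k).trace ≤ 1 ∧
      Valued.v ((t j : GL (Fin 2) k) : Matrix (Fin 2) (Fin 2) k).det = 1) (j : Fin l) :
    InU 0 (t j) := by
  have h := twN_conj_split159 l t y j
  rw [ht, succN_self159] at h
  have hcomm : t j * twN (shiftHom (k := k) l) l y j = twN (shiftHom (k := k) l) l y j * t j := by
    calc t j * twN (shiftHom (k := k) l) l y j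
        = t j * ((t j)⁻¹ * twN (shiftHom (k := k) l) l y j * t j) := by rw [← h]
      _ = twN (shiftHom (k := k) l) l y j * t j := by group
  refine cent_compact159 (twN (shiftHom (k := k) l) l y j) (t j) (inU_twN_split159 y hy l j) ?_
    hcomm (htc j).1 (htc j).2
  rw [disc_twN_split159, hd]

end Split

end Fermat.Agent.LT.T7.H159

end
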