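import Mathlib

/-!
# Row LT, tower T7, node UpFactC340 / FactUpC305 -- ASSET "BLOCK-FUBINI" (helper159)

OFF-MAIN.  MATHLIB ONLY, abstract.  No hole, nothing assumed.  ADDITIVE (suffix `159`).

FUBINI GROUPED ALONG A MAP OF INDEX SETS (the places `w` of `K'` grouped by the places `v` of
`K` below them).  `π : ι' → ι` a map of finite types, `X w` measurable spaces with `σ`-finite
measures `μ w` (`w : ι'`).

* `blockEquiv159 π : (∀ w, X w) ≃ᵐ ∀ v, ∀ w : {w // π w = v}, X w`, `x ↦ (x_w)_{w ∣ v}`;
* `measurePreserving_block159`: it maps `⊗_w μ_w` to `⊗_v ⊗_{w ∣ v} μ_w`;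
* **`integral_block159`**: for ARBITRARY functions `F v` of the block at `v` (no hypothesis)

      ∫ ∏_v F_v((x_w)_{w ∣ v}) d(⊗_w μ_w) = ∏_v ∫ F_v d(⊗_{w ∣ v} μ_w);

* `integral_block_one159`: a block with ONE element `w₀` (a place with one place over it):
  `∫ F d(⊗_{w ∣ v} μ_w) = ∫ F(the family with the value y at w₀) dμ_{w₀}(y)`;
* `integral_block_fin159`: a block enumerated by `e : Fin l ≃ {w // π w = v}` with measure
  preserving identifications `a j : X (e j) ≃ᵐ H` (a split place: `i_j : K_v ≃ K'_{w_j}`):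
  `∫ F d(⊗_{w ∣ v} μ_w) = ∫ F((a_j⁻¹ y_j)_j) d(ν^{⊗ l})(y)`.
-/

set_option autoImplicit false

open MeasureTheory MeasureTheory.Measure Set

noncomputable section

namespace Fermat.Agent.LT.T7.H159

section Block

variable {ι' ι : Type*} (π : ι' → ι) {X : ι' → Type*}

/-- The regrouping `x ↦ (x_w)_{w ∣ v}` as an equivalence. -/
def blockEquivRaw159 : (∀ w, X w) ≃ ∀ v, ∀ w : {w : ι' // π w = v}, X w.1 where
  toFun x := fun _ w => x w.1
  invFun y := fun w => y (π w) ⟨w, rfl⟩
  left_inv _ := rfl
  right_inv y := by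
    funext v w
    obtain ⟨w, hw⟩ := w
    subst hw
    rfl

variable [∀ w, MeasurableSpace (X w)]

/-- The regrouping `x ↦ (x_w)_{w ∣ v}` as a measurable equivalence. -/
def blockEquiv159 : (∀ w, X w) ≃ᵐ ∀ v, ∀ w : {w : ι' // π w = v}, X w.1 where
  toEquiv := blockEquivRaw159 π
  measurable_toFun :=
    measurable_pi_lambda _ fun _ => measurable_pi_lambda _ fun w => measurable_pi_apply w.1
  measurable_invFun :=
    measurable_pi_lambda _ fun w =>
      (measurable_pi_apply (⟨w, rfl⟩ : {w' : ι' // π w' = π w})).comp (measurable_pi_apply (π w))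

@[simp] theorem blockEquiv_apply159 (x : ∀ w, X w) (v : ι) (w : {w : ι' // π w = v}) :
    blockEquiv159 π x v w = x w.1 := rfl

variable [Fintype ι'] [Fintype ι] [DecidableEq ι] (μ : ∀ w, Measure (X w))
  [∀ w, SigmaFinite (μ w)]

/-- The regrouping maps the product measure to the product of the product measures of the
blocks. -/
theorem map_block159 :
    Measure.map (blockEquiv159 π) (Measure.pi μ)
      = Measure.pi fun v : ι => Measure.pi fun w : {w : ι' // π w = v} => μ w.1 := by
  symm
  refine Measure.pi_eq_generateFrom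
    (C := fun v : ι => Set.pi univ ''
      Set.pi univ fun w : {w : ι' // π w = v} => {s : Set (X w.1) | MeasurableSet s})
    (fun v => generateFrom_pi) (fun v => isPiSystem_pi)
    (fun v => FiniteSpanningSetsIn.pi fun w => (μ w.1).toFiniteSpanningSetsIn) ?_
  intro s hs
  choose t ht hts using hs
  have htm : ∀ (v : ι) (w : {w : ι' // π w = v}), MeasurableSet (t v w) :=
    fun v w => ht v w (Set.mem_univ w)
  have hsm : MeasurableSet (Set.pi univ s) :=
    MeasurableSet.univ_pi fun v => by
      rw [← hts v]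
      exact MeasurableSet.univ_pi fun w => htm v w
  rw [Measure.map_apply (blockEquiv159 π).measurable hsm]
  have hpre : (blockEquiv159 π) ⁻¹' (Set.pi univ s)
      = Set.pi univ fun w : ι' => t (π w) ⟨w, rfl⟩ := by
    ext x
    simp only [mem_preimage, mem_pi, mem_univ, true_implies]
    constructor
    · intro h w
      have := h (π w)
      rw [← hts (π w)] at this
      exact this ⟨w, rfl⟩ (Set.mem_univ _)
    · intro h v
      rw [← hts v]
      rintro ⟨w, hw⟩ _
      subst hw
      exact h w
  rw [hpre, Measure.pi_pi]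
  have hv : ∀ v : ι, (Measure.pi fun w : {w : ι' // π w = v} => μ w.1) (s v)
      = ∏ w : {w : ι' // π w = v}, μ w.1 (t (π w.1) ⟨w.1, rfl⟩) := by
    intro v
    rw [← hts v, Measure.pi_pi]
    refine Finset.prod_congr rfl ?_
    rintro ⟨w, hw⟩ _
    subst hw
    rfl
  simp_rw [hv]
  exact (Fintype.prod_fiberwise π fun w => μ w (t (π w) ⟨w, rfl⟩)).symm

theorem measurePreserving_block159 :
    MeasurePreserving (blockEquiv159 π) (Measure.pi μ)
      (Measure.pi fun v : ι => Measure.pi fun w : {w : ι' // π w = v} => μ w.1) :=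
  ⟨(blockEquiv159 π).measurable, map_block159 π μ⟩

/-- **BLOCK FUBINI.**  No hypothesis on the functions. -/
theorem integral_block159 (F : ∀ v : ι, (∀ w : {w : ι' // π w = v}, X w.1) → ℂ) :
    ∫ x, ∏ v : ι, F v (fun w => x w.1) ∂(Measure.pi μ)
      = ∏ v : ι, ∫ y, F v y ∂(Measure.pi fun w : {w : ι' // π w = v} => μ w.1) := by
  have h := (measurePreserving_block159 π μ).integral_comp'
    (fun y : (∀ v : ι, ∀ w : {w : ι' // π w = v}, X w.1) => ∏ v : ι, F v (y v))
  rw [integral_fintype_prod_eq_prod] at h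
  rw [← h]
  rfl

end Block

section Pieces

variable {J : Type*} [Fintype J] {Y : J → Type*} [∀ j, MeasurableSpace (Y j)]
  (ν : ∀ j, Measure (Y j)) [∀ j, SigmaFinite (ν j)]

omit [∀ j, SigmaFinite (ν j)] in
/-- A block with ONE element. -/
theorem integral_block_one159 [Unique J] (F : (∀ j, Y j) → ℂ) :
    ∫ y, F y ∂(Measure.pi ν)
      = ∫ z, F ((MeasurableEquiv.piUnique Y).symm z) ∂(ν default) :=
  (((measurePreserving_piUnique ν).symm (MeasurableEquiv.piUnique Y)).integral_comp' F).symm

/-- A block enumerated by `Fin l`, with measure preserving identifications of the factors with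
one measure space `(H, ν₀)`. -/
theorem integral_block_fin159 {l : ℕ} {H : Type*} [MeasurableSpace H] (ν₀ : Measure H)
    [SigmaFinite ν₀] (e : Fin l ≃ J) (a : ∀ j : Fin l, Y (e j) ≃ᵐ H)
    (ha : ∀ j, MeasurePreserving (a j) (ν (e j)) ν₀) (F : (∀ j, Y j) → ℂ) :
    ∫ y, F y ∂(Measure.pi ν)
      = ∫ z : Fin l → H,
          F (MeasurableEquiv.piCongrLeft Y e (fun j => (a j).symm (z j)))
          ∂(Measure.pi fun _ : Fin l => ν₀) := by
  have h2 := (measurePreserving_piCongrLeft ν e).integral_comp' F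
  rw [← h2]
  have h1 : MeasurePreserving (MeasurableEquiv.piCongrRight fun j : Fin l => (a j).symm)
      (Measure.pi fun _ : Fin l => ν₀) (Measure.pi fun j : Fin l => ν (e j)) :=
    measurePreserving_pi (fun _ : Fin l => ν₀) (fun j : Fin l => ν (e j))
      (f := fun j => (a j).symm) fun j => (ha j).symm (a j)
  have h3 := h1.integral_comp'
    (fun y : (∀ j : Fin l, Y (e j)) => F (MeasurableEquiv.piCongrLeft Y e y))
  rw [← h3]
  rfl

end Pieces

end Fermat.Agent.LT.T7.H159

end
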